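import Mathlib.LinearAlgebra.Dual.Lemmas
import Mathlib.LinearAlgebra.Lagrange
import Fermat.Prelude.Def_ModularCurve_LaurentCoeff

/-!
# Galois descent of coefficients of Laurent series

Stable finite dimensional spaces are spanned by their rational series; a series whose coefficients
lie in the field generated by one element is a combination of rational ones.
-/

noncomputable section

open ModularCurve

namespace Fermat.Agent.LoweringAtP.PeuRamifie

variable {K : Type*} [Field K]

/-- A finite dimensional space stable under automorphisms of the coefficients is spanned by the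
series with fixed coefficients. -/
theorem le_span_fixed (H : Set (K →+* K)) (V : Submodule K (LaurentSeries K))
    [FiniteDimensional K V] (hst : ∀ g ∈ H, ∀ x ∈ V, coeffMap g x ∈ V) :
    V ≤ Submodule.span K {x | x ∈ V ∧ ∀ (n : ℤ), ∀ g ∈ H, g (x.coeff n) = x.coeff n} := by
  classical
  let ev : ℤ → Module.Dual K V := fun n =>
    { toFun := fun x => (x : LaurentSeries K).coeff n
      map_add' := fun x y => by simp
      map_smul' := fun c x => by simp }
  have hsep : ∀ x : V, (∀ n, ev n x = 0) → x = 0 := fun x hx =>
    Subtype.ext (HahnSeries.ext (funext fun n => hx n))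
  have hspan : Submodule.span K (Set.range ev) = ⊤ := by
    have hco : (Submodule.span K (Set.range ev)).dualCoannihilator = ⊥ := by
      refine (Submodule.eq_bot_iff _).mpr fun x hx => hsep x fun n => ?_
      exact (Submodule.mem_dualCoannihilator x).mp hx _ (Submodule.subset_span ⟨n, rfl⟩)
    refine Submodule.eq_top_of_finrank_eq ?_
    have h := Subspace.finrank_add_finrank_dualCoannihilator_eq (Submodule.span K (Set.range ev))
    rw [hco, finrank_bot, add_zero] at h
    rw [h, Subspace.dual_finrank_eq]
  obtain ⟨b, hb, hbspan, hli⟩ := exists_linearIndependent K (Set.range ev)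
  rw [hspan] at hbspan
  have : Fintype b := @Fintype.ofFinite _ hli.finite
  let B : Module.Basis b K (Module.Dual K V) := Module.Basis.mk hli (by
    rw [Subtype.range_coe, hbspan])
  let e : Module.Basis b K V := B.dualBasis.map (Module.evalEquiv K V).symm
  have hBe : ∀ i j : b, B i (e j) = if i = j then 1 else 0 := fun i j => by
    simp only [e, Module.Basis.map_apply, Module.apply_evalEquiv_symm_apply]
    rw [Module.Basis.dualBasis_apply_self]
  have hfix : ∀ j : b, ∀ (n : ℤ), ∀ g ∈ H,
      g ((e j : LaurentSeries K).coeff n) = (e j : LaurentSeries K).coeff n := by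
    intro j n g hg
    set d : V := ⟨coeffMap g (e j), hst g hg _ (e j).2⟩ - e j
    have h0 : d = 0 := hsep d fun m => by
      have hlin : ∀ φ : Module.Dual K V, φ d = 0 := by
        refine LinearMap.congr_fun (B.ext (f₁ := Module.Dual.eval K V d) (f₂ := 0) fun i => ?_)
        obtain ⟨k, hk⟩ := hb i.2
        have hB : B i = ev k := by rw [Module.Basis.mk_apply]; exact hk.symm
        have h1 := hBe i j
        rw [hB] at h1
        show B i d = 0
        rw [hB]
        show g ((e j : LaurentSeries K).coeff k) - (e j : LaurentSeries K).coeff k = 0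
        rw [show (e j : LaurentSeries K).coeff k = if i = j then 1 else 0 from h1]
        split_ifs <;> simp
      exact hlin (ev m)
    have := congrArg (fun z : V => (z : LaurentSeries K).coeff n) h0
    simpa [d, coeffMap_coeff, sub_eq_zero] using this
  intro x hx
  have h := e.sum_repr ⟨x, hx⟩
  rw [show x = ((∑ i, e.repr ⟨x, hx⟩ i • e i : V) : LaurentSeries K) by rw [h],
    AddSubmonoidClass.coe_finsetSum]
  exact sum_mem fun i _ => Submodule.smul_mem _ _
    (Submodule.subset_span ⟨(e i).2, fun n g hg => hfix i n g hg⟩)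

/-- A series in a stable space with coefficients fixed by the stabiliser of `t` is a combination
of powers of `t` times series of the space with fixed coefficients. -/
theorem exists_expansion {R : Type*} [CommSemiring R] [Algebra R K] (G : Subgroup (K ≃ₐ[R] K))
    {t : K} (O : Finset K) (ht : t ∈ O) (hO : ∀ y ∈ O, ∃ g ∈ G, g t = y)
    (hGO : ∀ g ∈ G, ∀ y ∈ O, g y ∈ O) (W : Submodule K (LaurentSeries K))
    (hW : ∀ g ∈ G, ∀ x ∈ W, coeffMap (g : K →+* K) x ∈ W) {f : LaurentSeries K} (hf : f ∈ W)
    (hfix : ∀ g ∈ G, g t = t → ∀ n, g (f.coeff n) = f.coeff n) :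
    ∃ w : ℕ → LaurentSeries K, (∀ i, w i ∈ W ∧ ∀ g ∈ G, ∀ n, g ((w i).coeff n) = (w i).coeff n) ∧
      f = ∑ i ∈ Finset.range O.card, t ^ i • w i := by
  classical
  choose! σ hσG hσt using hO
  have hwd : ∀ g ∈ G, ∀ y ∈ O, g t = y → ∀ n, g (f.coeff n) = σ y (f.coeff n) := by
    intro g hg y hy hgy n
    have h1 := hfix ((σ y)⁻¹ * g) (mul_mem (inv_mem (hσG y hy)) hg) (by
      rw [AlgEquiv.mul_apply, hgy]
      refine (σ y).injective ?_
      rw [hσt y hy]
      exact (σ y).apply_symm_apply y) n
    rw [AlgEquiv.mul_apply] at h1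
    conv_rhs => rw [← h1]
    exact ((σ y).apply_symm_apply _).symm
  let L : K → Polynomial K := fun y => Lagrange.basis O id y
  have hL : ∀ y ∈ O, ∀ z ∈ O, (L y).eval z = if z = y then 1 else 0 := fun y hy z hz => by
    split_ifs with h
    · subst h; exact Lagrange.eval_basis_self (v := id) Function.injective_id.injOn hy
    · exact Lagrange.eval_basis_of_ne (v := id) (Ne.symm h) hz
  have hLdeg : ∀ y ∈ O, (L y).degree < O.card := fun y hy => by
    rw [Lagrange.degree_basis (v := id) Function.injective_id.injOn hy]
    exact_mod_cast Nat.sub_lt (Finset.card_pos.mpr ⟨y, hy⟩) one_pos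
  have hsurj : ∀ g ∈ G, ∀ z ∈ O, ∃ y ∈ O, g y = z := fun g hg z hz =>
    ⟨g.symm z, by exact hGO g⁻¹ (inv_mem hg) z hz, g.apply_symm_apply z⟩
  have hLmap : ∀ g ∈ G, ∀ y ∈ O, (L y).map (g : K →+* K) = L (g y) := fun g hg y hy => by
    refine Polynomial.eq_of_degrees_lt_of_eval_index_eq (v := id) O Function.injective_id.injOn
      ?_ (hLdeg _ (hGO g hg y hy)) fun z hz => ?_
    · rw [Polynomial.degree_map]; exact hLdeg y hy
    · obtain ⟨z', hz', rfl⟩ := hsurj g hg z hz
      show ((L y).map (g : K →+* K)).eval (g z') = (L (g y)).eval (g z')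
      rw [hL _ (hGO g hg y hy) _ (hGO g hg z' hz')]
      rw [show g z' = (g : K →+* K) z' from rfl, Polynomial.eval_map_apply, hL y hy z' hz']
      simp only [RingHom.coe_coe, g.injective.eq_iff]
      split_ifs <;> simp
  refine ⟨fun i => ∑ y ∈ O, (L y).coeff i • coeffMap (σ y : K →+* K) f, fun i => ⟨?_, ?_⟩, ?_⟩
  · exact sum_mem fun y hy => W.smul_mem _ (hW _ (hσG y hy) f hf)
  · intro g hg n
    simp only [HahnSeries.coeff_sum, HahnSeries.coeff_smul, smul_eq_mul, map_sum, map_mul,
      coeffMap_coeff]
    refine Finset.sum_bij (fun y _ => g y) (fun y hy => hGO g hg y hy)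
      (fun _ _ _ _ h => g.injective h)
      (fun z hz => by
        obtain ⟨y, hy, rfl⟩ := hsurj g hg z hz
        exact ⟨y, hy, rfl⟩) fun y hy => ?_
    rw [← hLmap g hg y hy, Polynomial.coeff_map]
    congr 1
    exact hwd (g * σ y) (mul_mem hg (hσG y hy)) (g y) (hGO g hg y hy)
      (by rw [AlgEquiv.mul_apply, hσt y hy]) n
  · ext n
    simp only [HahnSeries.coeff_sum, HahnSeries.coeff_smul, smul_eq_mul, coeffMap_coeff,
      Finset.mul_sum]
    rw [Finset.sum_comm, Finset.sum_eq_single t]
    · have hsum : ∑ i ∈ Finset.range O.card, t ^ i * (L t).coeff i = 1 := by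
        have h := hL t ht t ht
        rw [if_pos rfl, Polynomial.eval_eq_sum_range' (n := O.card) ?_] at h
        · simpa only [mul_comm] using h
        · rw [Polynomial.natDegree_lt_iff_degree_lt (fun h0 => by
            have := hL t ht t ht; rw [h0, Polynomial.eval_zero, if_pos rfl] at this
            exact zero_ne_one this)]
          exact hLdeg t ht
      simp only [← mul_assoc]
      rw [← Finset.sum_mul, hsum, one_mul]
      have := hwd 1 (one_mem G) t ht rfl n
      simpa using this
    · intro y hy hne
      have hsum : ∑ i ∈ Finset.range O.card, t ^ i * (L y).coeff i = 0 := by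
        have h := hL y hy t ht
        rw [if_neg (Ne.symm hne)] at h
        rcases eq_or_ne (L y) 0 with h0 | h0
        · simp [h0]
        · rw [Polynomial.eval_eq_sum_range' (n := O.card)
            ((Polynomial.natDegree_lt_iff_degree_lt h0).mpr (hLdeg y hy))] at h
          simpa only [mul_comm] using h
      simp only [← mul_assoc]
      rw [← Finset.sum_mul, hsum, zero_mul]
    · exact fun h => absurd ht h

end Fermat.Agent.LoweringAtP.PeuRamifie
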