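import Fermat.Agent.FF.RiemannRoch
import Fermat.Agent.LoweringAtP.PeuRamifie.Descent
import Fermat.Agent.Mazur.Cusp

/-!
# Representatives of fixed torsion classes on `X₀(N)`

A class in `J₀(N)[p]` fixed by a group `H` of Galois automorphisms has an `H`-stable divisor `D`,
and `p • D` is the divisor of a function with coefficients fixed by `H`: the cusp `∞` is rational,
so `D` is made unique as `E - r (∞)`, `E` effective and `r` minimal, and `f` is made monic in `q`.
Spaces `L(E)` of stable divisors are spanned by their functions with fixed coefficients.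
-/

noncomputable section

namespace Fermat.Agent.LoweringAtP.PeuRamifie

open ModularCurve AlgebraicCurve Fermat.Agent.FF

local notation "Qbar" => AlgebraicClosure ℚ
local notation "GQ" => AlgebraicClosure ℚ ≃ₐ[ℚ] AlgebraicClosure ℚ

variable {N : ℕ} [NeZero N]

/-- The semilinear automorphism of the function field given by Galois. -/
abbrev galAut (N : ℕ) (σ : GQ) : SemilinearAut Qbar (modularFunctionFieldBar N) :=
  arithmeticGalois (modularFunctionFieldFull N) σ

omit [NeZero N] in
theorem ord_galAut_smul (σ : GQ) (P : Place Qbar (modularFunctionFieldBar N))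
    (f : modularFunctionFieldBar N) :
    P.ord (galAut N σ • f) = ((galAut N σ)⁻¹ • P).ord f := by
  conv_lhs => rw [← smul_inv_smul (galAut N σ) P]
  rw [SemilinearAut.ord_smul]

omit [NeZero N] in
/-- An automorphism fixing a divisor preserves its space. -/
theorem smul_mem_rrSpace {σ : GQ} {E : Divisor Qbar (modularFunctionFieldBar N)}
    (hE : galAut N σ • E = E) {f : modularFunctionFieldBar N} (hf : f ∈ riemannRochSpace E) :
    galAut N σ • f ∈ riemannRochSpace E := by
  rcases eq_or_ne f 0 with rfl | hf0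
  · rw [show galAut N σ • (0 : modularFunctionFieldBar N) = 0 from
      smul_zero (galAut N σ)]
    exact zero_mem _
  have hne : galAut N σ • f ≠ 0 := (smul_ne_zero_iff_ne (galAut N σ)).mpr hf0
  rw [mem_rrSpace_of_ord hne]
  intro P
  rw [ord_galAut_smul]
  have h := (mem_rrSpace_of_ord hf0).1 hf ((galAut N σ)⁻¹ • P)
  rwa [← SemilinearAut.divisor_smul_apply, hE] at h

/-- `L(E)` of a stable divisor is spanned by functions with fixed coefficients. -/
theorem rrSpace_le_span_fixed (H : Set GQ) {E : Divisor Qbar (modularFunctionFieldBar N)}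
    (hE : ∀ σ ∈ H, galAut N σ • E = E) :
    riemannRochSpace E ≤ Submodule.span Qbar {u | u ∈ riemannRochSpace E ∧
      ∀ (n : ℤ), ∀ σ ∈ H, σ ((u : LaurentSeries Qbar).coeff n) =
        (u : LaurentSeries Qbar).coeff n} := by
  let ι : modularFunctionFieldBar N →ₗ[Qbar] LaurentSeries Qbar :=
    { toFun := fun x => (x : LaurentSeries Qbar)
      map_add' := fun _ _ => rfl
      map_smul' := fun c x => by
        rw [RingHom.id_apply, ← HahnSeries.single_zero_mul_eq_smul,
          ← ModularCurve.algebraMap_laurentSeries_eq_single, Algebra.smul_def, MulMemClass.coe_mul]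
        rfl }
  have hinj : Function.Injective ι := fun a b h => Subtype.ext h
  let V : Submodule Qbar (LaurentSeries Qbar) := Submodule.map ι (riemannRochSpace E)
  have key := le_span_fixed ((fun σ : GQ => (σ : Qbar →+* Qbar)) '' H) V (by
      rintro _ ⟨σ, hσ, rfl⟩ _ ⟨x, hx, rfl⟩
      have e : coeffMap (σ : Qbar →+* Qbar) (ι x) = ι (galAut N σ • x) :=
        (coe_arithmeticGalois_smul (modularFunctionFieldFull N) σ x).symm
      show coeffMap (σ : Qbar →+* Qbar) (ι x) ∈ V
      rw [e]
      exact Submodule.mem_map_of_mem (smul_mem_rrSpace (hE σ hσ) hx))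
  intro x hx
  have h := Submodule.span_mono (R := Qbar) (t := ι '' {u | u ∈ riemannRochSpace E ∧
      ∀ (n : ℤ), ∀ σ ∈ H, σ ((u : LaurentSeries Qbar).coeff n) =
        (u : LaurentSeries Qbar).coeff n}) (by
      rintro _ ⟨⟨u, hu, rfl⟩, hfix⟩
      exact ⟨u, ⟨hu, fun n σ hσ => hfix n _ ⟨σ, hσ, rfl⟩⟩, rfl⟩) (key ⟨x, hx, rfl⟩)
  rw [Submodule.span_image] at h
  obtain ⟨y, hy, hyx⟩ := h
  rwa [← hinj hyx]

/-- Constants are detected by orders. -/
theorem exists_eq_const_mul {f g : modularFunctionFieldBar N} (hf : f ≠ 0) (hg : g ≠ 0)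
    (h : ∀ P : Place Qbar (modularFunctionFieldBar N), P.ord g = P.ord f) :
    ∃ c : Qbar, g = algebraMap Qbar (modularFunctionFieldBar N) c * f := by
  obtain ⟨c, hc⟩ := mem_range_of_ord_nonneg (K := Qbar) (f := g / f) fun P => by
    rw [div_eq_mul_inv, P.ord_mul hg (inv_ne_zero hf), P.ord_inv, h P]
    omega
  exact ⟨c, by rw [hc, div_mul_cancel₀ _ hf]⟩

omit [NeZero N] in
/-- Equality of divisor classes. -/
theorem pic0_mk_eq_iff {D E : Divisor.degZero (K := Qbar) (F := modularFunctionFieldBar N)} :
    Pic0.mk D = Pic0.mk E ↔ ∃ g : modularFunctionFieldBar N, g ≠ 0 ∧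
      ∀ v : Place Qbar (modularFunctionFieldBar N),
        ((D : Divisor Qbar (modularFunctionFieldBar N)) -
          (E : Divisor Qbar (modularFunctionFieldBar N))) v = v.ord g := by
  show QuotientAddGroup.mk D = QuotientAddGroup.mk E ↔ _
  rw [QuotientAddGroup.eq_iff_sub_mem, AddSubgroup.mem_addSubgroupOf]
  rfl

/-- A class killed by `p` and fixed by `H` has an `H`-stable divisor whose `p`-fold is the divisor
of a function with coefficients fixed by `H`. -/
theorem exists_fixed_rep (H : Subgroup GQ) {p : ℕ} {z : JZero N} (hz : p • z = 0)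
    (hfix : ∀ σ ∈ H, σ • z = z) :
    ∃ (D : Divisor.degZero (K := Qbar) (F := modularFunctionFieldBar N))
      (f : modularFunctionFieldBar N),
      Pic0.mk D = z ∧ (∀ σ ∈ H, galAut N σ • (D : Divisor Qbar (modularFunctionFieldBar N)) = D) ∧
        f ≠ 0 ∧
      (∀ P : Place Qbar (modularFunctionFieldBar N),
        P.ord f = (p : ℤ) * (D : Divisor Qbar (modularFunctionFieldBar N)) P) ∧
      ∀ (n : ℤ), ∀ σ ∈ H, σ ((f : LaurentSeries Qbar).coeff n) =
        (f : LaurentSeries Qbar).coeff n := by
  classical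
  obtain ⟨O, -, hOrat⟩ := Mazur.exists_infty N
  obtain ⟨D₀, rfl⟩ := Pic0.mk_surjective z
  have hD₀ : Divisor.degree (D₀ : Divisor Qbar (modularFunctionFieldBar N)) = 0 := D₀.2
  set T : ℕ → Divisor Qbar (modularFunctionFieldBar N) := fun r => Finsupp.single O (r : ℤ) with hT
  have hdegT : ∀ r : ℕ, Divisor.degree (T r) = r := fun r => by
    rw [hT, Divisor.degree_single, FF.place_deg_eq_one]
    simp
  have hex : ∃ r, 0 < ell ((D₀ : Divisor Qbar (modularFunctionFieldBar N)) + T r) := by
    refine ⟨genusFF Qbar (modularFunctionFieldBar N), ?_⟩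
    have := riemann_inequality ((D₀ : Divisor Qbar (modularFunctionFieldBar N)) +
      T (genusFF Qbar (modularFunctionFieldBar N)))
    rw [map_add, hD₀, hdegT] at this
    omega
  set r := Nat.find hex with hr
  have hpos : 0 < ell ((D₀ : Divisor Qbar (modularFunctionFieldBar N)) + T r) := Nat.find_spec hex
  have hone : ell ((D₀ : Divisor Qbar (modularFunctionFieldBar N)) + T r) ≤ 1 := by
    rcases Nat.eq_zero_or_pos r with h0 | h0
    · have := ell_le_of_degree_nonneg
        (D := (D₀ : Divisor Qbar (modularFunctionFieldBar N)) + T r)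
        (by rw [map_add, hD₀, hdegT, zero_add]; exact Int.natCast_nonneg r)
      rw [map_add, hD₀, hdegT, h0] at this
      rw [h0]
      omega
    · have hlt := Nat.find_min hex (show r - 1 < r by omega)
      have hs : (D₀ : Divisor Qbar (modularFunctionFieldBar N)) + T r =
          (D₀ : Divisor Qbar (modularFunctionFieldBar N)) + T (r - 1) + Finsupp.single O 1 := by
        rw [add_assoc, hT]
        simp only
        rw [← Finsupp.single_add]
        congr 2
        omega
      rw [hs]
      have := ell_step_le ((D₀ : Divisor Qbar (modularFunctionFieldBar N)) + T (r - 1)) O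
      omega
  obtain ⟨g, hg, hgL⟩ := exists_ne_zero_of_ell_pos hpos
  -- the normalised divisor
  set E : Divisor Qbar (modularFunctionFieldBar N) :=
    (D₀ : Divisor Qbar (modularFunctionFieldBar N)) + divOf g with hE
  have hEdeg : E ∈ Divisor.degZero (K := Qbar) (F := modularFunctionFieldBar N) := by
    rw [Divisor.mem_degZero, hE, map_add, hD₀, degree_divOf, add_zero]
  have hEr : 0 ≤ E + T r := by
    have h := neg_divOf_le hg hgL
    rwa [hE, add_right_comm]
  have hclass : Pic0.mk ⟨E, hEdeg⟩ = Pic0.mk D₀ := by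
    rw [pic0_mk_eq_iff]
    exact ⟨g, hg, fun v => by simp [hE]⟩
  have hEone : ∀ h ∈ riemannRochSpace (E + T r), ∃ c : Qbar,
      h = algebraMap Qbar (modularFunctionFieldBar N) c := by
    have h1 : ell (E + T r) ≤ 1 := by rwa [hE, add_right_comm, ell_add_divOf hg]
    have hmem : (1 : modularFunctionFieldBar N) ∈ riemannRochSpace (E + T r) := by
      rw [mem_rrSpace_of_ord one_ne_zero]
      intro v
      rw [Place.ord_one, Left.neg_nonpos_iff]
      exact hEr v
    have hspan : Qbar ∙ (1 : modularFunctionFieldBar N) = riemannRochSpace (E + T r) := by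
      refine Submodule.eq_of_le_of_finrank_le
        ((Submodule.span_singleton_le_iff_mem _ _).mpr hmem) ?_
      rwa [finrank_span_singleton one_ne_zero]
    intro h hh
    rw [← hspan, Submodule.mem_span_singleton] at hh
    obtain ⟨c, rfl⟩ := hh
    exact ⟨c, Algebra.algebraMap_eq_smul_one c |>.symm⟩
  have hstab : ∀ σ ∈ H, galAut N σ • E = E := fun σ hσ => by
    have h1 : Pic0.mk (SemilinearAut.degZeroSMulHom (galAut N σ) ⟨E, hEdeg⟩) =
      Pic0.mk ⟨E, hEdeg⟩ := by
      rw [← SemilinearAut.pic0_smul_mk, hclass, ← galois_smul_pic0_def]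
      exact hfix σ hσ
    rw [pic0_mk_eq_iff] at h1
    obtain ⟨h, hh, hdiv⟩ := h1
    have hTfix : galAut N σ • T r = T r := by
      rw [hT]
      simp only
      rw [SemilinearAut.smul_single, show galAut N σ • O = O from hOrat σ]
    have hσr : ∀ v, 0 ≤ (galAut N σ • E) v + T r v := fun v => by
      have h' := hEr ((galAut N σ)⁻¹ • v)
      rw [← hTfix, SemilinearAut.divisor_smul_apply, SemilinearAut.divisor_smul_apply]
      exact h'
    have hmem : h ∈ riemannRochSpace (E + T r) := by
      rw [mem_rrSpace_of_ord hh]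
      intro v
      rw [← hdiv v]
      simp only [SemilinearAut.coe_degZeroSMulHom, Finsupp.coe_sub, Pi.sub_apply, Finsupp.coe_add,
        Pi.add_apply]
      linarith [hσr v]
    obtain ⟨c, rfl⟩ := hEone h hmem
    ext v
    have hv := hdiv v
    rw [FF.ord_algebraMap] at hv
    simp only [SemilinearAut.coe_degZeroSMulHom, Finsupp.coe_sub, Pi.sub_apply] at hv
    exact sub_eq_zero.mp hv
  -- the function
  have hp0 : p • Pic0.mk ⟨E, hEdeg⟩ = 0 := by rw [hclass, hz]
  change p • QuotientAddGroup.mk (⟨E, hEdeg⟩ : Divisor.degZero (K := Qbar)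
    (F := modularFunctionFieldBar N)) = 0 at hp0
  rw [← QuotientAddGroup.mk_nsmul, QuotientAddGroup.eq_zero_iff,
    AddSubgroup.mem_addSubgroupOf] at hp0
  obtain ⟨f₀, hf₀, hf₀d⟩ := hp0
  have hf₀ord : ∀ P : Place Qbar (modularFunctionFieldBar N),
      P.ord f₀ = (p : ℤ) * E P := fun P => by
    rw [← hf₀d P]
    simp
  set n₀ := (f₀ : LaurentSeries Qbar).order with hn₀
  have hf₀' : (f₀ : LaurentSeries Qbar) ≠ 0 := fun h => hf₀ (Subtype.ext h)
  set a := (f₀ : LaurentSeries Qbar).coeff n₀ with ha
  have ha0 : a ≠ 0 := fun h => hf₀' (HahnSeries.coeff_order_eq_zero.mp h)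
  set f : modularFunctionFieldBar N := algebraMap Qbar (modularFunctionFieldBar N) a⁻¹ * f₀ with hf
  have hfne : f ≠ 0 := mul_ne_zero ((map_ne_zero _).mpr (inv_ne_zero ha0)) hf₀
  have hford : ∀ P : Place Qbar (modularFunctionFieldBar N), P.ord f = (p : ℤ) * E P := fun P => by
    rw [hf, P.ord_mul ((map_ne_zero _).mpr (inv_ne_zero ha0)) hf₀, FF.ord_algebraMap, zero_add,
      hf₀ord]
  have hcoe : ∀ (c : Qbar) (u : modularFunctionFieldBar N) (n : ℤ),
      ((algebraMap Qbar (modularFunctionFieldBar N) c * u : modularFunctionFieldBar N) :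
        LaurentSeries Qbar).coeff n = c * (u : LaurentSeries Qbar).coeff n := fun c u n => by
    rw [MulMemClass.coe_mul,
      show ((algebraMap Qbar (modularFunctionFieldBar N) c : modularFunctionFieldBar N) :
        LaurentSeries Qbar) = algebraMap Qbar (LaurentSeries Qbar) c from rfl,
      ModularCurve.algebraMap_laurentSeries_eq_single, HahnSeries.coeff_single_zero_mul]
  have hfn₀ : (f : LaurentSeries Qbar).coeff n₀ = 1 := by
    rw [hf, hcoe, ← ha, inv_mul_cancel₀ ha0]
  refine ⟨⟨E, hEdeg⟩, f, hclass, hstab, hfne, hford, fun n σ hσ => ?_⟩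
  have hne : galAut N σ • f ≠ 0 := (smul_ne_zero_iff_ne (galAut N σ)).mpr hfne
  obtain ⟨c, hc⟩ := exists_eq_const_mul hfne hne fun P => by
    rw [ord_galAut_smul, hford, hford, ← SemilinearAut.divisor_smul_apply, hstab σ hσ]
  have hcoeff : ∀ m, σ ((f : LaurentSeries Qbar).coeff m) = c * (f : LaurentSeries Qbar).coeff m :=
    fun m => by
      rw [← hcoe, ← hc, coe_arithmeticGalois_smul, coeffMap_coeff]
      rfl
  have hc1 : c = 1 := by
    have := hcoeff n₀
    rw [hfn₀, map_one, mul_one] at this
    exact this.symm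
  rw [hcoeff, hc1, one_mul]

end Fermat.Agent.LoweringAtP.PeuRamifie
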