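import Mathlib.Algebra.GroupWithZero.Action.Basic
import Fermat.Agent.Mazur.Descent.Unramified

/-!
# The inertia field at a place over `p`

Its values are the powers of the value of `p`, and every element of the residue field lifts to it:
this is the unramified base field of the peu ramifié arguments.
-/

noncomputable section

namespace Fermat.Agent.LoweringAtP.PeuRamifie

open Polynomial

local notation "Qbar" => AlgebraicClosure ℚ

variable {A : ValuationSubring Qbar} {p : ℕ}

local notation "v" => A.valuation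

/-- The fixed field of inertia. -/
def inertiaField (A : ValuationSubring Qbar) : Subfield Qbar where
  carrier := {x | ∀ σ ∈ A.inertiaSubgroupIn ℚ, σ x = x}
  mul_mem' := fun {a b} ha hb σ hσ => by rw [map_mul, ha σ hσ, hb σ hσ]
  one_mem' := fun σ _ => map_one σ
  add_mem' := fun {a b} ha hb σ hσ => by rw [map_add, ha σ hσ, hb σ hσ]
  zero_mem' := fun σ _ => map_zero σ
  neg_mem' := fun {a} ha σ hσ => by rw [map_neg, ha σ hσ]
  inv_mem' := fun a ha σ hσ => by rw [map_inv₀, ha σ hσ]

theorem natCast_mem_inertiaField (n : ℕ) : (n : Qbar) ∈ inertiaField A :=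
  natCast_mem _ n

/-- A surjection onto a field kills the maximal ideal. -/
theorem map_eq_zero_of_mem {k : Type*} [Field k] {π : A →+* k} (hπ : Function.Surjective π) {x : A}
    (hx : x ∈ IsLocalRing.maximalIdeal A) : π x = 0 := by
  have : RingHom.ker π = IsLocalRing.maximalIdeal A :=
    IsLocalRing.eq_maximalIdeal (RingHom.ker_isMaximal_of_surjective π hπ)
  exact RingHom.mem_ker.mp (this ▸ hx)

theorem val_p_pos (hp : p.Prime) (_ : A.LiesOverPrime p) : (0 : A.ValueGroup) < v (p : Qbar) :=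
  zero_lt_iff.mpr (A.valuation.ne_zero_iff.mpr (Nat.cast_ne_zero.mpr hp.ne_zero))

theorem val_p_lt_one (_ : p.Prime) (hA : A.LiesOverPrime p) : v (p : Qbar) < 1 := hA

variable (hp : p.Prime) (hA : A.LiesOverPrime p)
include hp hA

theorem zpow_val_le_iff {a b : ℤ} : v (p : Qbar) ^ a ≤ v (p : Qbar) ^ b ↔ b ≤ a :=
  zpow_le_zpow_iff_right_of_lt_one₀ (val_p_pos hp hA) (val_p_lt_one hp hA)

theorem zpow_val_lt_iff {a b : ℤ} : v (p : Qbar) ^ a < v (p : Qbar) ^ b ↔ b < a :=
  zpow_lt_zpow_iff_right_of_lt_one₀ (val_p_pos hp hA) (val_p_lt_one hp hA)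

theorem zpow_val_inj {a b : ℤ} : v (p : Qbar) ^ a = v (p : Qbar) ^ b ↔ a = b :=
  ⟨fun h => le_antisymm ((zpow_val_le_iff hp hA).mp h.ge) ((zpow_val_le_iff hp hA).mp h.le),
    fun h => h ▸ rfl⟩

/-- The values of the inertia field are the powers of the value of `p`. -/
theorem exists_val_eq_zpow {x : Qbar} (hx : x ∈ inertiaField A) (h0 : x ≠ 0) :
    ∃ j : ℤ, v x = v (p : Qbar) ^ j := by
  obtain ⟨j, hj⟩ := Mazur.exists_unit_mul_zpow hp hA h0 hx
  refine ⟨j, ?_⟩
  rw [Mazur.IsUnitAt, map_div₀, map_zpow₀,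
    div_eq_one_iff_eq (zpow_ne_zero _ (val_p_pos hp hA).ne')] at hj
  exact hj

/-- In the inertia field, a value less than `1` is at most the value of `p`. -/
theorem val_le_of_lt_one {x : Qbar} (hx : x ∈ inertiaField A) (h1 : v x < 1) :
    v x ≤ v (p : Qbar) := by
  rcases eq_or_ne x 0 with rfl | h0
  · rw [map_zero]; exact zero_le
  obtain ⟨j, hj⟩ := exists_val_eq_zpow hp hA hx h0
  rw [hj, ← zpow_zero (v (p : Qbar)), zpow_val_lt_iff hp hA] at h1
  conv_rhs => rw [← zpow_one (v (p : Qbar))]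
  rw [hj, zpow_val_le_iff hp hA]
  omega

/-- A nonunit of the inertia field is divisible by `p`. -/
theorem div_natCast_mem {x : Qbar} (hx : x ∈ inertiaField A) (h1 : x ∈ A.nonunits) :
    x / (p : Qbar) ∈ A := by
  rw [← A.valuation_le_one_iff, map_div₀, div_le_one₀ (val_p_pos hp hA)]
  exact val_le_of_lt_one hp hA hx h1

/-- Some Frobenius power fixes a given element. -/
theorem exists_frobenius_period (a : Qbar) :
    ∃ σ : Gal.AbsGal, A.IsFrobeniusAt σ p ∧ ∃ f : ℕ, 0 < f ∧ (σ ^ f) a = a := by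
  obtain ⟨σ, hσ⟩ := Gal.exists_isFrobeniusAt (A := A) hp hA
  refine ⟨σ, hσ, ?_⟩
  have hne : minpoly ℚ a ≠ 0 :=
    minpoly.ne_zero (Algebra.IsAlgebraic.isAlgebraic (R := ℚ) a).isIntegral
  let g : ℕ → (minpoly ℚ a).rootSet Qbar := fun n => ⟨(σ ^ n) a, mem_rootSet.mpr ⟨hne, by
    show aeval ((σ ^ n).toAlgHom a) (minpoly ℚ a) = 0
    rw [Polynomial.aeval_algHom_apply, minpoly.aeval, map_zero]⟩⟩
  obtain ⟨i, j, hij, he⟩ := Finite.exists_ne_map_eq_of_infinite g
  have he' : (σ ^ i) a = (σ ^ j) a := congrArg Subtype.val he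
  rcases lt_or_gt_of_ne hij with h | h
  · refine ⟨j - i, by omega, (σ ^ i).injective ?_⟩
    rw [← AlgEquiv.mul_apply, ← pow_add, show i + (j - i) = j by omega, he']
  · refine ⟨i - j, by omega, (σ ^ j).injective ?_⟩
    rw [← AlgEquiv.mul_apply, ← pow_add, show j + (i - j) = i by omega, he']

/-- Residues lift to the inertia field. -/
theorem exists_lift {k : Type*} [Field k] (π : A →+* k) (hπ : Function.Surjective π) (r : k) :
    ∃ a : A, (a : Qbar) ∈ inertiaField A ∧ π a = r := by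
  classical
  rcases eq_or_ne r 0 with rfl | hr
  · exact ⟨0, zero_mem (inertiaField A), map_zero π⟩
  obtain ⟨a, rfl⟩ := hπ r
  obtain ⟨σ, hσ, f, hf, hfix⟩ := exists_frobenius_period hp hA (a : Qbar)
  obtain ⟨hD, hF⟩ := Gal.isFrobeniusAt_iff.mp hσ
  have hDpow : ∀ n, σ ^ n ∈ A.decompositionSubgroup ℚ := fun n => pow_mem hD n
  have hiter : ∀ n : ℕ, ((σ ^ n) (a : Qbar)) - (a : Qbar) ^ p ^ n ∈ A.nonunits := by
    intro n
    induction n with
    | zero => simp [A.mem_nonunits_iff]
    | succ n ih =>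
      have ha : (σ ^ n) (a : Qbar) ∈ A := (Gal.mem_decomposition_iff.mp (hDpow n) _).mpr a.2
      have h1 := hF _ ha
      set b : A := ⟨_, ha⟩
      set e : A := ⟨(σ ^ n) (a : Qbar) - (a : Qbar) ^ p ^ n, sub_mem ha (pow_mem a.2 _)⟩
      have he : e ∈ IsLocalRing.maximalIdeal A := ValuationSubring.coe_mem_nonunits_iff.mp ih
      have h2 : b ^ p - (a : A) ^ p ^ (n + 1) ∈ IsLocalRing.maximalIdeal A := by
        rw [pow_succ (n := n), pow_mul]
        exact Ideal.mem_of_dvd _ (sub_dvd_pow_sub_pow b ((a : A) ^ p ^ n) p) he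
      rw [pow_succ' σ, AlgEquiv.mul_apply]
      have := add_mem h1 (ValuationSubring.coe_mem_nonunits_iff.mpr h2)
      simpa [b] using this
  have hq : π (a ^ p ^ f) = π a := by
    have h1 := hiter f
    rw [hfix] at h1
    have h2 : a - a ^ p ^ f ∈ IsLocalRing.maximalIdeal A := by
      rw [← ValuationSubring.coe_mem_nonunits_iff]
      simpa using h1
    exact (sub_eq_zero.mp (by rw [← map_sub]; exact map_eq_zero_of_mem hπ h2)).symm
  -- a root of unity above `r`
  set m := p ^ f - 1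
  have h1p : 1 < p ^ f := Nat.one_lt_pow hf.ne' hp.one_lt
  have hm0 : 0 < m := by omega
  have hpm : ¬ p ∣ m := fun h => by
    have : p ∣ p ^ f := dvd_pow_self p hf.ne'
    have h3 := Nat.dvd_sub this h
    rw [show p ^ f - m = 1 by omega] at h3
    exact hp.not_dvd_one h3
  have hrm : π a ^ m = 1 := by
    refine mul_left_cancel₀ hr ?_
    rw [← pow_succ', show m + 1 = p ^ f by omega, ← map_pow, hq, mul_one]
  have hsplit : (X ^ m - C (1 : Qbar)) =
      ((X ^ m - C (1 : Qbar)).roots.map fun z => X - C z).prod :=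
    ((IsAlgClosed.splits _).eq_prod_roots_of_monic (monic_X_pow_sub_C 1 hm0.ne'))
  have hev := congrArg (fun P : Qbar[X] => P.eval (a : Qbar)) hsplit
  simp only [eval_sub, eval_pow, eval_X, eval_C, eval_multiset_prod, Multiset.map_map] at hev
  by_contra hcon
  push Not at hcon
  have hmem : ∀ z ∈ (X ^ m - C (1 : Qbar)).roots, z ^ m = 1 := fun z hz => by
    have := isRoot_of_mem_roots hz
    simpa [IsRoot, sub_eq_zero] using this
  have hprod : ((X ^ m - C (1 : Qbar)).roots.map fun z => v ((a : Qbar) - z)).prod = 1 := by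
    refine Multiset.prod_eq_one fun x hx => ?_
    obtain ⟨z, hz, rfl⟩ := Multiset.mem_map.mp hx
    have hzA : z ∈ A := Gal.mem_of_isIntegral (IsIntegral.of_pow hm0 (hmem z hz ▸ isIntegral_one))
    have hne := hcon ⟨z, hzA⟩ fun τ hτ => Gal.inertia_rootOfUnity hp hA hτ hpm (hmem z hz)
    have hu : a - (⟨z, hzA⟩ : A) ∉ IsLocalRing.maximalIdeal A := fun h =>
      hne (sub_eq_zero.mp (by rw [← map_sub]; exact map_eq_zero_of_mem hπ h)).symm
    exact le_antisymm ((A.valuation_le_one_iff _).mpr (sub_mem a.2 hzA))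
      (not_lt.mp fun h => hu (ValuationSubring.coe_mem_nonunits_iff.mp h))
  have hlt : v ((a : Qbar) ^ m - 1) < 1 := by
    have h2 : π (a ^ m - 1) = 0 := by rw [map_sub, map_pow, hrm, map_one, sub_self]
    have h3 : a ^ m - 1 ∈ IsLocalRing.maximalIdeal A := by
      rw [IsLocalRing.mem_maximalIdeal]
      exact fun hu => (hu.map π).ne_zero h2
    exact (by simpa using ValuationSubring.coe_mem_nonunits_iff.mpr h3 :
      (a : Qbar) ^ m - 1 ∈ A.nonunits)
  rw [hev, map_multiset_prod, Multiset.map_map] at hlt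
  refine hlt.ne ((congrArg Multiset.prod (Multiset.map_congr rfl fun z _ => ?_)).trans hprod)
  simp

end Fermat.Agent.LoweringAtP.PeuRamifie
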