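import Fermat.Agent.LoweringAtP.PeuRamifie.NodePoint

/-!
# The Eisenstein generator of a peu ramifié point

An element whose orbit under inertia has `p` elements at the distance of `1 - ζ` yields a root `t`
of an Eisenstein equation with unit linear coefficient, such that inertia fixing `t` fixes the
element.
-/

noncomputable section

namespace Fermat.Agent.LoweringAtP.PeuRamifie

open Polynomial WeierstrassCurve Fermat.Agent.Tate

local notation "Qbar" => AlgebraicClosure ℚ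

variable {A : ValuationSubring (AlgebraicClosure ℚ)} {τ : AlgebraicClosure ℚ}
  {p : ℕ} [hp : Fact p.Prime]

local notation "v" => A.valuation

/-- The value is invariant under the decomposition group. -/
theorem val_apply_eq {σ : Gal.AbsGal} (hd : σ ∈ A.decompositionSubgroup ℚ) (z : Qbar) :
    v (σ z) = v z := by
  have hne : minpoly ℚ z ≠ 0 :=
    minpoly.ne_zero (Algebra.IsAlgebraic.isAlgebraic (R := ℚ) z).isIntegral
  let g : ℕ → (minpoly ℚ z).rootSet Qbar := fun n => ⟨(σ ^ n) z, mem_rootSet.mpr ⟨hne, by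
    show aeval ((σ ^ n).toAlgHom z) (minpoly ℚ z) = 0
    rw [Polynomial.aeval_algHom_apply, minpoly.aeval, map_zero]⟩⟩
  obtain ⟨i, j, hij, he⟩ := Finite.exists_ne_map_eq_of_infinite g
  have he' : (σ ^ i) z = (σ ^ j) z := congrArg Subtype.val he
  obtain ⟨k, hk⟩ : ∃ k, (σ ^ (k + 1)) z = z := by
    rcases lt_or_gt_of_ne hij with h | h
    · refine ⟨j - i - 1, (σ ^ i).injective ?_⟩
      rw [← AlgEquiv.mul_apply, ← pow_add, show i + (j - i - 1 + 1) = j by omega, he']
    · refine ⟨i - j - 1, (σ ^ j).injective ?_⟩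
      rw [← AlgEquiv.mul_apply, ← pow_add, show j + (i - j - 1 + 1) = i by omega, he']
  have hstep : ∀ n : ℕ, (σ ^ (n + 2)) z = (σ ^ (n + 1)) (σ z) := fun n => by
    rw [← AlgEquiv.mul_apply, ← pow_succ]
  rcases lt_trichotomy (v (σ z)) (v z) with h | h | h
  · have hall : ∀ n : ℕ, v ((σ ^ (n + 1)) z) < v z := fun n => by
      induction n with
      | zero => rwa [zero_add, pow_one]
      | succ n ih =>
        rw [hstep]
        exact ((val_lt_val_iff (pow_mem hd _) _ _).2 h).trans ih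
    exact absurd (hall k) (by rw [hk]; exact lt_irrefl _)
  · exact h
  · have hall : ∀ n : ℕ, v z < v ((σ ^ (n + 1)) z) := fun n => by
      induction n with
      | zero => rwa [zero_add, pow_one]
      | succ n ih =>
        rw [hstep]
        exact ih.trans ((val_lt_val_iff (pow_mem hd _) _ _).2 h)
    exact absurd (hall k) (by rw [hk]; exact lt_irrefl _)

/-- The linear coefficient of a monic polynomial of degree `p` whose lower coefficients are fixed
by inertia and small has the value of `p`, if its derivative at a small element does. -/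
theorem val_coeff_one_eq (hA : A.LiesOverPrime p) {f : Qbar[X]} (hmonic : f.Monic)
    (hdeg : f.natDegree = p) (hfix : ∀ j, f.coeff j ∈ inertiaField A)
    (hlow : ∀ j < p, v (f.coeff j) < 1) {t : AlgebraicClosure ℚ} (hg : v t < 1)
    (hder : v (f.derivative.eval t) = v (p : Qbar)) : v (f.coeff 1) = v (p : Qbar) := by
  have hp0 := val_p_pos hp.out hA
  have hp2 := hp.out.two_le
  have hsum : f.derivative.eval t =
      ∑ i ∈ Finset.range (p + 1), f.coeff i * (i : Qbar) * t ^ (i - 1) := by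
    conv_lhs => rw [f.as_sum_range_C_mul_X_pow, hdeg]
    rw [derivative_sum, eval_finsetSum]
    exact Finset.sum_congr rfl fun i _ => by
      rw [derivative_C_mul_X_pow, eval_mul, eval_C, eval_pow, eval_X]
  have h1 : (1 : ℕ) ∈ Finset.range (p + 1) := Finset.mem_range.2 (by omega)
  rw [← Finset.add_sum_erase _ _ h1, Nat.cast_one, mul_one, Nat.sub_self, pow_zero,
    mul_one] at hsum
  have hrest : v (∑ i ∈ (Finset.range (p + 1)).erase 1,
      f.coeff i * (i : Qbar) * t ^ (i - 1)) < v (p : Qbar) := by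
    refine Valuation.map_sum_lt _ hp0.ne' fun i hi => ?_
    obtain ⟨hi1, hi2⟩ := Finset.mem_erase.1 hi
    rw [Finset.mem_range] at hi2
    rcases Nat.eq_zero_or_pos i with rfl | hi0
    · simpa using hp0
    have ht1 : v (t ^ (i - 1)) < 1 := by
      rw [map_pow]; exact pow_lt_one₀ zero_le hg (by omega)
    rcases Nat.lt_succ_iff_lt_or_eq.1 hi2 with hlt | rfl
    · rw [map_mul, map_mul]
      exact lt_of_lt_of_le (mul_lt_mul' (mul_le_mul'
        (val_le_of_lt_one hp.out hA (hfix i) (hlow i hlt)) (val_natCast_le A i)) ht1 zero_le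
        (by rw [mul_one]; exact hp0)) (by rw [mul_one, mul_one])
    · have hlc : f.coeff i = 1 := by rw [← hdeg]; exact hmonic
      rw [hlc, one_mul, map_mul]
      exact mul_lt_of_lt_one_right hp0 ht1
  have e : f.coeff 1 = f.derivative.eval t -
      ∑ i ∈ (Finset.range (p + 1)).erase 1, f.coeff i * (i : Qbar) * t ^ (i - 1) := by
    rw [hsum, add_sub_cancel_right]
  rw [e, Valuation.map_sub_eq_of_lt_left _ (by rw [hder]; exact hrest), hder]

/-- An integer whose inertia orbit has `p` elements at mutual distance `δ`, `δ ^ (p - 1) = |p|`,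
generates the same extension as a root of an Eisenstein equation with unit linear coefficient. -/
theorem exists_eisenstein_of_orbit (hp2 : p ≠ 2) (hA : A.LiesOverPrime p) {u : AlgebraicClosure ℚ}
    (hu : v u ≤ 1) {δ : A.ValueGroup} (hδ : δ ^ (p - 1) = v (p : Qbar))
    {O₀ : Finset (AlgebraicClosure ℚ)} (hcard₀ : O₀.card = p)
    (hrepr₀ : ∀ σ ∈ A.inertiaSubgroupIn ℚ, σ u ∈ O₀)
    (hsurj₀ : ∀ r ∈ O₀, ∃ σ ∈ A.inertiaSubgroupIn ℚ, σ u = r)
    (hdiff₀ : ∀ σ ∈ A.inertiaSubgroupIn ℚ, σ u ≠ u → v (σ u - u) = δ) :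
    ∃ (t : A) (a : Fin p → A), (∀ j, (a j : Qbar) ∈ inertiaField A) ∧
      v (a ⟨0, hp.out.pos⟩ : Qbar) = 1 ∧ v (a ⟨1, hp.out.one_lt⟩ : Qbar) = 1 ∧
      (t : Qbar) ^ p = (p : Qbar) * ∑ j, (a j : Qbar) * (t : Qbar) ^ (j : ℕ) ∧
      ∀ σ ∈ A.inertiaSubgroupIn ℚ, σ (t : Qbar) = t → σ u = u := by
  classical
  have hp3 : 3 ≤ p := lt_of_le_of_ne hp.out.two_le (Ne.symm hp2)
  have hp0 := val_p_pos hp.out hA
  -- the generator
  have huA : u ∈ A := (mem_iff A).2 hu
  obtain ⟨c, hcK, hcres⟩ := exists_lift hp.out hA (IsLocalRing.residue A)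
    IsLocalRing.residue_surjective (IsLocalRing.residue A ⟨_, huA⟩)
  set t : Qbar := u - c with htdef
  have hσt : ∀ σ ∈ A.inertiaSubgroupIn ℚ, σ t = σ u - c := fun σ hσ => by
    rw [htdef, map_sub, hcK σ hσ]
  have hg : v t < 1 := by
    rw [← sub_eq_zero, ← map_sub, IsLocalRing.residue_eq_zero_iff,
      ValuationSubring.valuation_lt_one_iff] at hcres
    rw [htdef, ← Valuation.map_neg, neg_sub]
    exact hcres
  have hσteq : ∀ σ ∈ A.inertiaSubgroupIn ℚ, σ t = t ↔ σ u = u := fun σ hσ => by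
    rw [hσt σ hσ, htdef, sub_left_inj]
  have hσdiff : ∀ σ ∈ A.inertiaSubgroupIn ℚ, σ t ≠ t → v (σ t - t) = δ := fun σ hσ hne => by
    rw [hσt σ hσ, htdef, sub_sub_sub_cancel_right]
    exact hdiff₀ σ hσ fun h => hne ((hσteq σ hσ).2 h)
  have hσg : ∀ σ ∈ A.inertiaSubgroupIn ℚ, v (σ t) < 1 := fun σ hσ =>
    val_apply_lt_one (mem_decomposition_of_mem_inertia hσ) hg
  -- the orbit
  set O : Finset Qbar := O₀.image fun r => r - (c : Qbar) with hO
  have hsurj : ∀ r ∈ O, ∃ σ ∈ A.inertiaSubgroupIn ℚ, σ t = r := fun r hr => by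
    obtain ⟨r₀, hr₀, rfl⟩ := Finset.mem_image.1 hr
    obtain ⟨σ, hσ, rfl⟩ := hsurj₀ r₀ hr₀
    exact ⟨σ, hσ, hσt σ hσ⟩
  have hrepr : ∀ σ, ∀ hσ : σ ∈ A.inertiaSubgroupIn ℚ, σ t ∈ O := fun σ hσ =>
    Finset.mem_image.2 ⟨σ u, hrepr₀ σ hσ, (hσt σ hσ).symm⟩
  have hcard : O.card = p := by
    rw [hO, Finset.card_image_of_injective _ fun a b h => sub_left_inj.1 h, hcard₀]
  have htO : t ∈ O := by simpa using hrepr 1 (one_mem _)
  have hOlt : ∀ r ∈ O, v r < 1 := fun r hr => by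
    obtain ⟨σ, hσ, rfl⟩ := hsurj r hr
    exact hσg σ hσ
  have hOstab : ∀ σ ∈ A.inertiaSubgroupIn ℚ, O.image σ = O := fun σ hσ => by
    refine Finset.eq_of_subset_of_card_le (Finset.image_subset_iff.mpr fun r hr => ?_)
      (by rw [Finset.card_image_of_injective _ σ.injective])
    obtain ⟨τ, hτ, rfl⟩ := hsurj r hr
    rw [← AlgEquiv.mul_apply]
    exact hrepr _ (mul_mem hσ hτ)
  have hOdiff : ∀ r ∈ O, r ≠ t → v (t - r) = δ := fun r hr hne => by
    obtain ⟨σ, hσ, rfl⟩ := hsurj r hr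
    rw [← Valuation.map_neg, neg_sub]
    exact hσdiff σ hσ hne
  -- the polynomial
  let fA : A[X] := ∏ r ∈ O.attach, (X - C (⟨r.1, (mem_iff A).2 (hOlt r.1 r.2).le⟩ : A))
  set f : Qbar[X] := ∏ r ∈ O, (X - C r) with hf
  have hfA : fA.map A.subtype = f := by
    rw [Polynomial.map_prod, hf, ← Finset.prod_attach O (fun r => X - C r)]
    exact Finset.prod_congr rfl fun r _ => by
      rw [Polynomial.map_sub, map_X, map_C]; rfl
  have hmonic : f.Monic := monic_prod_of_monic _ _ fun r _ => monic_X_sub_C r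
  have hdeg : f.natDegree = p := by
    rw [hf, natDegree_prod_of_monic _ _ fun r _ => monic_X_sub_C r]
    simp [hcard]
  have hlow : ∀ j < p, v (f.coeff j) < 1 := fun j hj => by
    rw [← hfA, coeff_map]
    change v ((fA.coeff j : A) : Qbar) < 1
    rw [← ValuationSubring.valuation_lt_one_iff, ← IsLocalRing.residue_eq_zero_iff, ← coeff_map,
      Polynomial.map_prod]
    have : ∀ r ∈ O.attach, (X - C (⟨r.1, (mem_iff A).2 (hOlt r.1 r.2).le⟩ : A)).map
        (IsLocalRing.residue A) = X := fun r _ => by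
      rw [Polynomial.map_sub, map_X, map_C,
        (IsLocalRing.residue_eq_zero_iff _).2 ((ValuationSubring.valuation_lt_one_iff A _).2
          (hOlt r.1 r.2)), map_zero, sub_zero]
    rw [Finset.prod_congr rfl this, Finset.prod_const, Finset.card_attach, hcard, coeff_X_pow,
      if_neg hj.ne]
  have hfix : ∀ j, f.coeff j ∈ inertiaField A := fun j σ hσ => by
    have : f.map (σ : Qbar →+* Qbar) = f := by
      rw [hf, Polynomial.map_prod]
      conv_rhs => rw [← hOstab σ hσ]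
      rw [Finset.prod_image fun a _ b _ h => σ.injective h]
      exact Finset.prod_congr rfl fun r _ => by rw [Polynomial.map_sub, map_X, map_C]; rfl
    conv_rhs => rw [← this, coeff_map]
    rfl
  have hdiv : ∀ j < p, -f.coeff j / (p : Qbar) ∈ A := fun j hj =>
    div_natCast_mem hp.out hA (neg_mem (hfix j)) (by
      rw [A.mem_nonunits_iff, Valuation.map_neg]; exact hlow j hj)
  have hroot : f.eval t = 0 := by
    rw [hf, eval_prod]
    exact Finset.prod_eq_zero htO (by simp)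
  -- the value of `t`
  have hδg : δ ≤ v t := by
    obtain ⟨r, hr, hne⟩ := Finset.exists_mem_ne (by rw [hcard]; exact hp.out.one_lt) t
    obtain ⟨σ, hσ, rfl⟩ := hsurj r hr
    rw [← hσdiff σ hσ hne]
    exact Valuation.map_sub_le _ (val_apply_eq (mem_decomposition_of_mem_inertia hσ) t).le le_rfl
  have hOval : ∀ r ∈ O, v r = v t := fun r hr => by
    obtain ⟨σ, hσ, rfl⟩ := hsurj r hr
    exact val_apply_eq (mem_decomposition_of_mem_inertia hσ) t
  have hc0val : v (f.coeff 0) = v t ^ p := by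
    rw [coeff_zero_eq_eval_zero, hf, eval_prod, map_prod, ← hcard, ← Finset.prod_const]
    refine Finset.prod_congr rfl fun r hr => ?_
    rw [eval_sub, eval_X, eval_C, zero_sub, Valuation.map_neg, hOval r hr]
  have hc0 : v (f.coeff 0) = v (p : Qbar) := by
    refine le_antisymm (val_le_of_lt_one hp.out hA (hfix 0) (hlow 0 hp.out.pos))
      (not_lt.1 fun hlt => ?_)
    have h1 : v (f.coeff 0 / (p : Qbar)) < 1 := by rwa [map_div₀, div_lt_one₀ hp0]
    have h2 := val_le_of_lt_one hp.out hA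
      (div_mem (hfix 0) (natCast_mem_inertiaField p)) h1
    rw [map_div₀, div_le_iff₀ hp0, hc0val, ← sq] at h2
    have h3 : δ ^ p ≤ v (p : Qbar) ^ 2 := (pow_le_pow_left₀ zero_le hδg p).trans h2
    have h4 := pow_le_pow_left₀ zero_le h3 (p - 1)
    rw [← pow_mul, ← pow_mul, mul_comm p, pow_mul, hδ] at h4
    have h5 := (pow_le_pow_iff_right_of_lt_one₀ hp0 (val_p_lt_one hp.out hA)).1 h4
    omega
  -- the derivative
  have hder : v (f.derivative.eval t) = v (p : Qbar) := by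
    rw [hf, ← Finset.mul_prod_erase O _ htO, derivative_mul, eval_add, eval_mul, eval_mul,
      eval_sub, eval_X, eval_C, sub_self, zero_mul, add_zero, derivative_X_sub_C, eval_one, one_mul,
      eval_prod, map_prod, ← hδ, ← hcard, ← Finset.card_erase_of_mem htO, ← Finset.prod_const]
    refine Finset.prod_congr rfl fun r hr => ?_
    rw [eval_sub, eval_X, eval_C]
    exact hOdiff r (Finset.mem_of_mem_erase hr) (Finset.ne_of_mem_erase hr)
  have hc1 : v (f.coeff 1) = v (p : Qbar) := val_coeff_one_eq hA hmonic hdeg hfix hlow hg hder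
  refine ⟨⟨t, (mem_iff A).2 hg.le⟩, fun j => ⟨_, hdiv j j.2⟩,
    fun j => div_mem (neg_mem (hfix j)) (natCast_mem_inertiaField p), ?_, ?_, ?_, ?_⟩
  · show v (-f.coeff 0 / (p : Qbar)) = 1
    rw [map_div₀, Valuation.map_neg, hc0, div_self hp0.ne']
  · show v (-f.coeff 1 / (p : Qbar)) = 1
    rw [map_div₀, Valuation.map_neg, hc1, div_self hp0.ne']
  · show t ^ p = (p : Qbar) * ∑ j : Fin p, -f.coeff j / (p : Qbar) * t ^ (j : ℕ)
    rw [Fin.sum_univ_eq_sum_range (fun j => -f.coeff j / (p : Qbar) * t ^ j), Finset.mul_sum]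
    have h := hroot
    rw [eval_eq_sum_range, hdeg, Finset.sum_range_succ,
      show f.coeff p = 1 by rw [← hdeg]; exact hmonic, one_mul] at h
    rw [eq_neg_of_add_eq_zero_right h, ← Finset.sum_neg_distrib]
    refine Finset.sum_congr rfl fun j _ => ?_
    field_simp [(Nat.cast_ne_zero.mpr hp.out.ne_zero : (p : Qbar) ≠ 0)]
  · exact fun σ hσ hfixt => (hσteq σ hσ).1 hfixt

/-- The abscissa `x₃` of the chord point gives how far a conjugate of the abscissa `x` of a deep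
point is from it: `|x₃| |σ x - x| ^ 2 = |x| ^ 2`. -/
theorem exists_chord (hp2 : p ≠ 2) (hA : A.LiesOverPrime p) (ht : v τ < 1) (ht0 : τ ≠ 0)
    (hτ : τ ∈ inertiaField A) {m : ℕ} {x y : AlgebraicClosure ℚ}
    {hns : (nodeCurve τ).Nonsingular x y} (hx : v x < 1) (hvx : v x = v (p : Qbar) ^ m)
    (htor : p • Affine.Point.some x y hns = 0) {R : (nodeCurve τ).Point} {σ : Gal.AbsGal}
    (hσ : σ ∈ A.inertiaSubgroupIn ℚ)
    (ha : inertiaConj hτ hσ (Affine.Point.some x y hns) = Affine.Point.some x y hns + R)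
    (hne : σ x ≠ x) :
    ∃ (x₃ y₃ : Qbar) (h₃ : (nodeCurve τ).Nonsingular x₃ y₃),
      -R = Affine.Point.some x₃ y₃ h₃ ∧ 1 < v x₃ ∧ v x₃ * v (σ x - x) ^ 2 = v x ^ 2 := by
  classical
  have hx0 : 0 < v x := by rw [hvx]; exact pow_pos (val_p_pos hp.out hA) m
  have hclose : v (σ x - x) < v x := by
    have hu : v (x / (p : Qbar) ^ m) = 1 := by rw [map_div₀, map_pow, ← hvx, div_self hx0.ne']
    have hlt := val_sub_lt_one_of_mem_inertia hσ ((mem_iff A).2 hu.le)
    rw [map_div₀ σ, map_pow σ, map_natCast σ, ← sub_div, map_div₀, map_pow, ← hvx,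
      div_lt_one₀ hx0] at hlt
    exact hlt
  obtain ⟨g, e⟩ := inertiaConj_some hτ hσ hns
  rw [ha] at e
  obtain ⟨he, -, hbr⟩ := val_apply_x_eq ht ht0 hp2 (mem_decomposition_of_mem_inertia hσ)
    (hτ σ hσ) hx htor
  obtain ⟨x₃, y₃, h₃, e₃, h13, h23⟩ := val_abscissa_sub (h₁ := hns) (h₂ := g) hx he (Ne.symm hne)
    hbr hclose
  refine ⟨x₃, y₃, h₃, ?_, h13, h23⟩
  rw [← e₃, ← e]
  abel

/-- The scaled abscissa of `P` minus a rational residue is the root `t` of an Eisenstein equation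
`t ^ p = p (a₀ + a₁ t + ...)` with `a₁` a unit, and inertia fixing `t` fixes `P`. -/
theorem exists_eisenstein (hp2 : p ≠ 2) (hA : A.LiesOverPrime p) (ht : v τ < 1) (ht0 : τ ≠ 0)
    (hτ : τ ∈ inertiaField A) {n : ℕ} (hn : v τ = v (p : Qbar) ^ n) (hpn : p ∣ n)
    {x y : AlgebraicClosure ℚ} {hns : (nodeCurve τ).Nonsingular x y} (hx : v x < 1)
    (htor : p • Affine.Point.some x y hns = 0) {Q : (nodeCurve τ).Point} (hQd : ¬ Deep A Q)
    (hQ0 : Q ≠ 0) (hQp : p • Q = 0) {ζ : AlgebraicClosure ℚ} (hζ : IsPrimitiveRoot ζ p)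
    (hline : ∀ σ, ∀ hσ : σ ∈ A.inertiaSubgroupIn ℚ, ∃ c : ℕ, inertiaConj hτ hσ Q = c • Q ∧
      σ ζ = ζ ^ c)
    (hact : ∀ σ, ∀ hσ : σ ∈ A.inertiaSubgroupIn ℚ, ∃ a : ℕ,
      inertiaConj hτ hσ (Affine.Point.some x y hns) = Affine.Point.some x y hns + a • Q)
    (htrans : ∀ a : ℕ, ∃ σ, ∃ hσ : σ ∈ A.inertiaSubgroupIn ℚ,
      inertiaConj hτ hσ (Affine.Point.some x y hns) = Affine.Point.some x y hns + a • Q) :
    ∃ (t : A) (a : Fin p → A), (∀ j, (a j : Qbar) ∈ inertiaField A) ∧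
      v (a ⟨0, hp.out.pos⟩ : Qbar) = 1 ∧ v (a ⟨1, hp.out.one_lt⟩ : Qbar) = 1 ∧
      (t : Qbar) ^ p = (p : Qbar) * ∑ j, (a j : Qbar) * (t : Qbar) ^ (j : ℕ) ∧
      ∀ σ ∈ A.inertiaSubgroupIn ℚ, σ (t : Qbar) = t → σ x = x ∧ σ y = y := by
  classical
  have hp3 : 3 ≤ p := lt_of_le_of_ne hp.out.two_le (Ne.symm hp2)
  have hp0 := val_p_pos hp.out hA
  have hint := isInt_nodeCurve (A := A) ht
  set P : (nodeCurve τ).Point := Affine.Point.some x y hns with hP
  have hPd : Deep A P := deep_some.2 hx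
  obtain ⟨i, hi, hxt, -⟩ := exists_pow_val_eq ht ht0 hp2 hx htor
  obtain ⟨l, rfl⟩ := hpn
  set m := l * i with hm
  have hvx : v x = v (p : Qbar) ^ m := by
    refine pow_left_inj_val A hp.out.ne_zero ?_
    rw [hi, hn, ← pow_mul, ← pow_mul, hm]
    congr 1
    ring
  have hx0 : 0 < v x := by rw [hvx]; exact pow_pos hp0 m
  -- linear algebra on the coset
  have hPP : ¬ ¬ Deep A (P + P) := fun h => by
    obtain ⟨k, hk⟩ := hp.out.odd_of_ne_two hp2
    have := not_deep_nsmul ht h (k + 1)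
    rw [mul_succ_eq_one_of_odd hk htor] at this
    exact this hPd
  have hsep : ∀ a b : ℕ, P + a • Q ≠ -(P + b • Q) := fun a b h => hPP (by
    have e : P + P = -((a + b) • Q) := by
      rw [add_nsmul]; rw [eq_neg_iff_add_eq_zero] at h ⊢; rw [← h]; abel
    rw [e, deep_neg_iff]
    exact not_deep_nsmul ht hQd _)
  have hxy : ∀ {σ₁ σ₂ : Gal.AbsGal} (h₁ : σ₁ ∈ A.inertiaSubgroupIn ℚ)
      (h₂ : σ₂ ∈ A.inertiaSubgroupIn ℚ) {a b : ℕ}, inertiaConj hτ h₁ P = P + a • Q →
      inertiaConj hτ h₂ P = P + b • Q →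
      (σ₁ x = σ₂ x → a • Q = b • Q) ∧ (a • Q = b • Q → σ₁ x = σ₂ x ∧ σ₁ y = σ₂ y) := by
    intro σ₁ σ₂ h₁ h₂ a b ha hb
    obtain ⟨g₁, e₁⟩ := inertiaConj_some hτ h₁ hns
    obtain ⟨g₂, e₂⟩ := inertiaConj_some hτ h₂ hns
    rw [← hP, ha] at e₁
    rw [← hP, hb] at e₂
    refine ⟨fun h => ?_, fun h => ?_⟩
    · rcases (Affine.Point.X_eq_iff (h₁ := g₁) (h₂ := g₂)).mp h with e | e
      · rw [← e₁, ← e₂] at e; exact add_left_cancel e
      · rw [← e₁, ← e₂] at e; exact absurd e (hsep a b)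
    · rw [h, e₂, Affine.Point.some.injEq] at e₁
      exact ⟨e₁.1.symm, e₁.2.symm⟩
  have hone : inertiaConj hτ (one_mem _) P = P + 0 • Q := by
    obtain ⟨g, e⟩ := inertiaConj_some hτ (one_mem _) hns
    rw [← hP] at e
    rw [e, zero_nsmul, add_zero, hP, Affine.Point.some.injEq]
    exact ⟨AlgEquiv.one_apply x, AlgEquiv.one_apply y⟩
  have hred : ∀ a : ℕ, a • Q = (a % p) • Q := fun a => nsmul_mod hQp a
  have hQinj : ∀ {a b : ℕ}, a < p → b < p → a • Q = b • Q → a = b := fun {a b} ha hb h => by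
    have h1 : addOrderOf Q = p := addOrderOf_eq_prime hQp hQ0
    have h2 := nsmul_eq_nsmul_iff_modEq.mp h
    rw [h1] at h2
    exact h2.eq_of_lt_of_lt ha hb
  -- `Q` reduces to the origin
  have hQ1 : InE1 A Q := by
    obtain ⟨σ, hσ, ha⟩ := htrans 1
    have hne : σ x ≠ x := fun h => by
      have := (hxy hσ (one_mem _) ha hone).1 (by rw [h, AlgEquiv.one_apply])
      rw [one_nsmul, zero_nsmul] at this
      exact hQ0 this
    obtain ⟨x₃, y₃, h₃, e, h13, -⟩ := exists_chord hp2 hA ht ht0 hτ hx hvx htor hσ ha hne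
    rw [one_nsmul] at e
    rw [← neg_neg Q, e]
    exact inE1_neg (inE1_some.2 h13)
  set δ := v (zPar (nodeCurve τ) Q) with hδdef
  have hδ := val_zPar_pow_eq hp2 hA ht hτ hQ1 hQ0 hQp hζ hline
  rw [← hδdef] at hδ
  have hδpos : 0 < δ := zero_lt_iff.2 fun h0 => by
    rw [h0, zero_pow (by omega)] at hδ
    exact hp0.ne hδ
  have hdiff : ∀ σ, ∀ hσ : σ ∈ A.inertiaSubgroupIn ℚ, σ x ≠ x → v (σ x - x) = v x * δ := by
    intro σ hσ hne
    obtain ⟨a, ha⟩ := hact σ hσ
    have hpa : ¬ p ∣ a := fun hdvd => hne (by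
      have h0 : a • Q = 0 • Q := by rw [hred a, Nat.mod_eq_zero_of_dvd hdvd]
      rw [((hxy hσ (one_mem _) ha hone).2 h0).1, AlgEquiv.one_apply])
    obtain ⟨x₃, y₃, h₃, e, h13, h23⟩ := exists_chord hp2 hA ht ht0 hτ hx hvx htor hσ ha hne
    have hz : v (zPar (nodeCurve τ) (-(a • Q))) = δ := by
      rw [hδdef]
      exact val_zPar_neg_nsmul hA hint hQ1 hQ0 hQp hpa
    rw [e] at hz
    have hsq := val_zPar_sq hint (h := h₃) h13
    rw [hz] at hsq
    refine (pow_left_inj₀ zero_le zero_le two_ne_zero).1 ?_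
    rw [mul_pow, ← h23, mul_comm (v x₃), mul_assoc, mul_comm (v x₃), hsq, mul_one]
  -- the scaled abscissa
  have hpm : (p : Qbar) ^ m ≠ 0 := pow_ne_zero _ (Nat.cast_ne_zero.mpr hp.out.ne_zero)
  set u : Qbar := x / (p : Qbar) ^ m with hu
  have hσu : ∀ σ : Gal.AbsGal, σ u = σ x / (p : Qbar) ^ m := fun σ => by
    rw [hu, map_div₀, map_pow, map_natCast]
  have hσueq : ∀ σ : Gal.AbsGal, σ u = u ↔ σ x = x := fun σ => by
    rw [hσu, hu, div_left_inj' hpm]
  choose σa hσa ha using htrans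
  set O : Finset Qbar := (Finset.range p).image fun a => σa a u with hO
  have hinj : Set.InjOn (fun a => σa a u) (Finset.range p : Set ℕ) := by
    intro a ha₁ b hb₁ h
    simp only [Finset.coe_range, Set.mem_Iio] at ha₁ hb₁ h
    rw [hσu, hσu, div_left_inj' hpm] at h
    exact hQinj ha₁ hb₁ ((hxy (hσa _) (hσa _) (ha a) (ha b)).1 h)
  have hrepr : ∀ σ ∈ A.inertiaSubgroupIn ℚ, σ u ∈ O := fun σ hσ => by
    obtain ⟨a, ha'⟩ := hact σ hσ
    refine Finset.mem_image.2 ⟨a % p, Finset.mem_range.2 (Nat.mod_lt _ hp.out.pos), ?_⟩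
    rw [hσu, hσu, ((hxy (hσa _) hσ (ha _) ha').2 (hred a).symm).1]
  have hsurj : ∀ r ∈ O, ∃ σ ∈ A.inertiaSubgroupIn ℚ, σ u = r := fun r hr => by
    obtain ⟨a, -, rfl⟩ := Finset.mem_image.1 hr
    exact ⟨σa a, hσa a, rfl⟩
  obtain ⟨t, b, hb, hb0, hb1, he, hfixt⟩ := exists_eisenstein_of_orbit hp2 hA
    (u := u) (by rw [hu, map_div₀, map_pow, ← hvx, div_self hx0.ne']) hδ
    (by rw [Finset.card_image_of_injOn hinj, Finset.card_range]) hrepr hsurj
    (fun σ hσ hne => by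
      rw [hσu, hu, ← sub_div, map_div₀, map_pow, ← hvx,
        hdiff σ hσ fun h => hne ((hσueq σ).2 h), mul_div_cancel_left₀ _ hx0.ne'])
  refine ⟨t, b, hb, hb0, hb1, he, fun σ hσ hfix => ?_⟩
  have hσx : σ x = x := (hσueq σ).1 (hfixt σ hσ hfix)
  obtain ⟨a, ha'⟩ := hact σ hσ
  have h := (hxy hσ (one_mem _) ha' hone).2
    ((hxy hσ (one_mem _) ha' hone).1 (by rw [hσx, AlgEquiv.one_apply]))
  exact ⟨hσx, by rw [h.2, AlgEquiv.one_apply]⟩

end Fermat.Agent.LoweringAtP.PeuRamifie
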