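import Fermat.Agent.EC.DetCyclotomic
import Fermat.Agent.Gal.RepTwo
import Fermat.Agent.LoweringAtP.PeuRamifie.Eisenstein

/-!
# Peu ramifié `p`-torsion of a multiplicative curve at `p`

For an integral model `W` with multiplicative reduction at `p` and `p ∣ v_p(Δ)`, some `p`-torsion
point off the identity component is either fixed by inertia, or is rational over a totally ramified
extension given by an Eisenstein equation `t ^ p = p (a₀ + a₁ t + ...)` with `a₁` a unit.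
-/

noncomputable section

namespace Fermat.Agent.LoweringAtP.PeuRamifie

open Polynomial WeierstrassCurve Fermat.Agent.Tate
open scoped WeierstrassCurve.Affine
open Fermat.Agent.SmallExponents (vcX vcY vcHom vcHom_some vcHom_injective vcHom_surjective)

local notation "Qbar" => AlgebraicClosure ℚ

variable {A : ValuationSubring (AlgebraicClosure ℚ)}

local notation "v" => A.valuation

/-- The normal form as a group isomorphism on points. -/
theorem exists_node_hom {W : WeierstrassCurve (AlgebraicClosure ℚ)} (D : NormalData A W) :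
    ∃ ψ : (nodeCurve D.t).Point →+ W.toAffine.Point,
      Function.Bijective ψ ∧
      (∀ x y h, ∃ h', ψ (.some x y h) = .some (vcX D.C x) (vcY D.C x y) h') ∧
      ∀ P, InE0 A (ψ P) ↔ ¬ Deep A P := by
  suffices h : ∀ V : WeierstrassCurve.Affine (AlgebraicClosure ℚ), V = nodeCurve D.t →
      ∃ ψ : V.Point →+ W.toAffine.Point, Function.Bijective ψ ∧
      (∀ x y h, ∃ h', ψ (.some x y h) = .some (vcX D.C x) (vcY D.C x y) h') ∧
      ∀ P, InE0 A (ψ P) ↔ InE0 A P by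
    obtain ⟨ψ, h1, h2, h3⟩ := h _ rfl
    exact ⟨ψ, h1, h2, fun P => (h3 P).trans (inE0_iff_not_deep D.ht P)⟩
  intro V hV
  obtain rfl : (D.C • W).toAffine = V := by rw [hV]; exact D.hC
  exact ⟨vcHom W D.C, ⟨vcHom_injective W D.C, vcHom_surjective W D.C⟩,
    fun x y h => ⟨_, vcHom_some W D.C h⟩, inE0_vcHom_iff D⟩

variable {p : ℕ} [hp : Fact p.Prime]

/-- The value of a nonzero integer is a power of the value of `p`. -/
theorem val_intCast_eq_pow (hA : A.LiesOverPrime p) {z : ℤ} (hz : z ≠ 0) :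
    v (z : Qbar) = v (p : Qbar) ^ padicValInt p z := by
  obtain ⟨m, hm⟩ := padicValInt_dvd (p := p) z
  have hnm : ¬ (p : ℤ) ∣ m := fun ⟨m', hm'⟩ => by
    have : (p : ℤ) ^ (padicValInt p z + 1) ∣ z :=
      ⟨m', by rw [pow_succ, mul_assoc, ← hm', ← hm]⟩
    rw [padicValInt_dvd_iff] at this
    rcases this with h0 | h0
    · exact hz h0
    · omega
  conv_lhs => rw [hm]
  rw [Int.cast_mul, map_mul, (val_intCast_eq_one_iff hp.out hA m).2 hnm, mul_one, Int.cast_pow,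
    map_pow, Int.cast_natCast]

variable {W : WeierstrassCurve ℤ}

/-- Inertia on the line of the multiplicative reduction is the cyclotomic character. -/
theorem exists_smul_line
    (hM : Module.finrank (ZMod p)
      (Submodule.torsionBy ℤ ((W.map (Int.castRingHom ℚ))⁄Qbar).Point (p : ℤ)) = 2)
    [(W.map (Int.castRingHom ℚ)).IsElliptic]
    {N : Submodule (ZMod p)
      (Submodule.torsionBy ℤ ((W.map (Int.castRingHom ℚ))⁄Qbar).Point (p : ℤ))}
    {xQ xP : Submodule.torsionBy ℤ ((W.map (Int.castRingHom ℚ))⁄Qbar).Point (p : ℤ)}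
    (hxQ : xQ ∈ N) (hxQ0 : xQ ≠ 0) (hxP : xP ∉ N) {ζ : Qbar} (hζ : IsPrimitiveRoot ζ p)
    {σ : Qbar ≃ₐ[ℚ] Qbar} {c b : ℕ} (hc : σ • xQ = c • xQ) (hb : σ • xP = xP + b • xQ) :
    σ ζ = ζ ^ c := by
  have hne : NeZero p := ⟨hp.out.ne_zero⟩
  have hfinM : Module.Finite (ZMod p)
      (Submodule.torsionBy ℤ ((W.map (Int.castRingHom ℚ))⁄Qbar).Point (p : ℤ)) :=
    Module.finite_of_finrank_pos (hM ▸ two_pos)
  have hn : Nat.card (rootsOfUnity p Qbar) = p := IsAlgClosed.card_rootsOfUnity_eq Qbar p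
  have hdet : LinearMap.det
      (Affine.Point.galoisRep (S := ℚ) (K := Qbar) (W.map (Int.castRingHom ℚ)) p
        σ).toLinearMap = (c : ZMod p) := by
    refine Gal.det_eq_of_line (b := (b : ZMod p)) hM hxQ hxQ0 hxP _ ?_ ?_
    · rw [Nat.cast_smul_eq_nsmul]; exact hc
    · rw [Nat.cast_smul_eq_nsmul, add_comm]; exact hb
  have hχ := congrArg Units.val
    (EC.galoisRepDetEqCyclotomic (W.map (Int.castRingHom ℚ)) p hn σ)
  rw [Affine.Point.galoisRepDet_apply, LinearEquiv.coe_det, hdet] at hχ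
  let u : rootsOfUnity p Qbar := rootsOfUnity.mkOfPowEq ζ hζ.pow_eq_one
  have hspec := modularCyclotomicCharacter.spec Qbar hn (σ : Qbar ≃+* Qbar) u.2
  rw [← hχ, ZMod.val_natCast] at hspec
  change σ ζ = _ at hspec
  rw [hspec]
  show ζ ^ (c % p) = ζ ^ c
  exact (pow_eq_pow_mod c hζ.pow_eq_one).symm

/-- A line in a vector space over `ℤ/p`: a generator, and a functional equal to `1` on it. -/
theorem exists_line_generator {V : Type*} [AddCommGroup V] [Module (ZMod p) V]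
    {N : Submodule (ZMod p) V} (hN : Module.finrank (ZMod p) N = 1) :
    ∃ x ∈ N, x ≠ 0 ∧ (∀ z ∈ N, ∃ k : ℕ, z = k • x) ∧ ∃ ℓ : V →ₗ[ZMod p] ZMod p, ℓ x = 1 := by
  have : Module.Finite (ZMod p) N := Module.finite_of_finrank_pos (hN ▸ one_pos)
  obtain ⟨⟨x, hx⟩, hx0⟩ := (Module.finrank_pos_iff_exists_ne_zero (R := ZMod p) (M := N)).1
    (hN ▸ one_pos)
  have hx0' : x ≠ 0 := fun h => hx0 (Subtype.ext h)
  refine ⟨x, hx, hx0', fun z hz => ?_, ?_⟩
  · obtain ⟨c, hc⟩ := exists_smul_eq_of_finrank_eq_one hN (x := (⟨x, hx⟩ : N)) hx0 ⟨z, hz⟩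
    refine ⟨c.val, ?_⟩
    rw [← Nat.cast_smul_eq_nsmul (ZMod p), ZMod.natCast_val, ZMod.cast_id]
    exact (congrArg Subtype.val hc).symm
  · obtain ⟨f, hf⟩ := not_forall.mp (mt (Module.forall_dual_apply_eq_zero_iff (ZMod p) x).mp hx0')
    exact ⟨(f x)⁻¹ • f, by rw [LinearMap.smul_apply, smul_eq_mul, inv_mul_cancel₀ hf]⟩

omit hp in
/-- The parametrisation of the nodal curve commutes with inertia. -/
theorem node_hom_inertiaConj {τ : Qbar} (hτ : τ ∈ inertiaField A)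
    {C : WeierstrassCurve.VariableChange Qbar}
    {ψ : (nodeCurve τ).Point →+ ((W.map (Int.castRingHom ℚ))⁄Qbar).Point}
    (hψsome : ∀ x y h, ∃ h', ψ (.some x y h) = .some (vcX C x) (vcY C x y) h')
    {σ : Qbar ≃ₐ[ℚ] Qbar} (hσ : σ ∈ A.inertiaSubgroupIn ℚ) (hu : σ (C.u : Qbar) = C.u)
    (hr : σ C.r = C.r)
    (hs : σ C.s = C.s) (hw : σ C.t = C.t) (R : (nodeCurve τ).Point) :
    ψ (inertiaConj hτ hσ R) = σ • (ψ R : ((W.map (Int.castRingHom ℚ))⁄Qbar).Point) := by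
  rcases R with _ | ⟨x, y, h⟩
  · show ψ (inertiaConj hτ hσ 0) =
      σ • (ψ 0 : ((W.map (Int.castRingHom ℚ))⁄Qbar).Point)
    rw [map_zero, map_zero]
    exact (smul_zero (A := ((W.map (Int.castRingHom ℚ))⁄Qbar).Point) σ).symm
  obtain ⟨g, e⟩ := inertiaConj_some hτ hσ h
  obtain ⟨k₁, e₁⟩ := hψsome x y h
  obtain ⟨k₂, e₂⟩ := hψsome (σ x) (σ y) g
  rw [e, e₁, e₂, smul_some]
  congr 1 <;> simp [vcX, vcY, hu, hr, hs, hw]

/-- **Peu ramifié.** Some `p`-torsion point off the identity component is fixed by inertia, or by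
the stabiliser in inertia of the root of an Eisenstein equation with unit linear coefficient. -/
theorem exists_peu (W : WeierstrassCurve ℤ) (hp2 : p ≠ 2) (hA : A.LiesOverPrime p)
    (hΔ0 : W.Δ ≠ 0) (hΔ : (p : ℤ) ∣ W.Δ) (hc₄ : ¬ (p : ℤ) ∣ W.c₄)
    (hv : p ∣ padicValInt p W.Δ) :
    ∃ P : ((W.map (Int.castRingHom ℚ))⁄(AlgebraicClosure ℚ)).Point, p • P = 0 ∧
      ¬ InE0 A (W := qbarCurve W) P ∧
      ((∀ σ ∈ A.inertiaSubgroupIn ℚ, σ • P = P) ∨
        ∃ (t : A) (a : Fin p → A), (∀ j, (a j : Qbar) ∈ inertiaField A) ∧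
          v (a ⟨0, hp.out.pos⟩ : Qbar) = 1 ∧ v (a ⟨1, hp.out.one_lt⟩ : Qbar) = 1 ∧
          (t : Qbar) ^ p = (p : Qbar) * ∑ j, (a j : Qbar) * (t : Qbar) ^ (j : ℕ) ∧
          ∀ σ ∈ A.inertiaSubgroupIn ℚ, σ (t : Qbar) = t → σ • P = P) := by
  classical
  have hvΔ : v (W.Δ : Qbar) < 1 := (val_intCast_lt_one_iff hp.out hA _).2 hΔ
  have hvc₄ : v (W.c₄ : Qbar) = 1 := (val_intCast_eq_one_iff hp.out hA _).2 hc₄
  have hell : (W.map (Int.castRingHom ℚ)).IsElliptic := ⟨by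
    rw [map_Δ, isUnit_iff_ne_zero]; simpa using hΔ0⟩
  have hne : NeZero p := ⟨hp.out.ne_zero⟩
  set N := e0Torsion W A p hΔ0 hvΔ hvc₄ with hN
  have hN1 : Module.finrank (ZMod p) N = 1 := finrank_e0Torsion hΔ0 hvΔ hvc₄ hp2
  have hM : Module.finrank (ZMod p)
      (Submodule.torsionBy ℤ ((W.map (Int.castRingHom ℚ))⁄Qbar).Point (p : ℤ)) = 2 :=
    EC.finrank_torsionBy (K := Qbar) (W.map (Int.castRingHom ℚ)) p
      (Nat.cast_ne_zero.2 hp.out.ne_zero)
  have hfinM : Module.Finite (ZMod p)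
      (Submodule.torsionBy ℤ ((W.map (Int.castRingHom ℚ))⁄Qbar).Point (p : ℤ)) :=
    Module.finite_of_finrank_pos (hM ▸ two_pos)
  -- a basis adapted to the line
  obtain ⟨P, hP, hPd⟩ : ∃ P : ((W.map (Int.castRingHom ℚ))⁄Qbar).Point,
      p • P = 0 ∧ ¬ InE0 A (W := qbarCurve W) P :=
    exists_torsion_not_inE0 (p := p) (W := qbarCurve W) (isInt_qbarCurve A W)
      (by simpa [qbar_Δ] using hΔ0) (by rwa [qbar_Δ]) (by rwa [qbar_c₄]) hp2
  let xP : Submodule.torsionBy ℤ ((W.map (Int.castRingHom ℚ))⁄Qbar).Point (p : ℤ) :=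
    ⟨P, by rw [Submodule.mem_torsionBy_iff, natCast_zsmul]; exact hP⟩
  have hxP : xP ∉ N := hPd
  obtain ⟨xQ, hxQ, hxQ0', hspan, -⟩ := exists_line_generator hN1
  set Q : ((W.map (Int.castRingHom ℚ))⁄Qbar).Point := xQ.1 with hQdef
  have hQp : p • Q = 0 := nsmul_torsionBy xQ
  have hQ0 : Q ≠ 0 := fun h => hxQ0' (Subtype.ext h)
  have hQin : InE0 A (W := qbarCurve W) Q := hxQ
  obtain ⟨ζ, hζ⟩ : ∃ ζ : Qbar, IsPrimitiveRoot ζ p :=
    HasEnoughRootsOfUnity.exists_primitiveRoot Qbar p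
  -- the action of inertia
  have hPact : ∀ σ ∈ A.inertiaSubgroupIn ℚ, ∃ b : ℕ, σ • P = P + b • Q := fun σ hσ => by
    have hmem : xP - σ • xP ∈ N :=
      inE0_sub_smul hp.out hA hΔ0 hΔ hc₄ hσ hp2 (nsmul_torsionBy xP)
    obtain ⟨k, hk⟩ := hspan _ (N.neg_mem hmem)
    refine ⟨k, ?_⟩
    have hk' := congrArg Subtype.val hk
    simp only [AddSubgroupClass.coe_sub, AddSubmonoidClass.coe_nsmul,
      neg_sub] at hk'
    exact eq_add_of_sub_eq' hk'
  have hline : ∀ σ ∈ A.inertiaSubgroupIn ℚ, ∃ c : ℕ, σ • Q = c • Q ∧ σ ζ = ζ ^ c := by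
    intro σ hσ
    have hmem : σ • xQ ∈ N :=
      inE0_smul_of_mem_decomposition (mem_decomposition_of_mem_inertia hσ) hQin
    obtain ⟨c, hc⟩ := hspan _ hmem
    obtain ⟨b, hb⟩ := hPact σ hσ
    exact ⟨c, congrArg Subtype.val hc,
      exists_smul_line hM hxQ hxQ0' hxP hζ hc (Subtype.ext hb)⟩
  rcases fixed_or_transitive (A.inertiaSubgroupIn ℚ) hQ0 hQp hPact
    (fun σ hσ => (hline σ hσ).imp fun c h => h.1) with ⟨a, ha⟩ | htrans
  · refine ⟨P + a • Q, ?_, fun hin => ?_, Or.inl ha⟩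
    · rw [nsmul_add, hP, ← mul_nsmul, mul_comm, mul_nsmul, hQp, nsmul_zero, add_zero]
    · have h1 : xP + a • xQ ∈ N := hin
      exact hxP ((N.add_mem_iff_left (nsmul_mem hxQ a)).1 h1)
  refine ⟨P, hP, hPd, Or.inr ?_⟩
  -- the normal form
  obtain ⟨D, hD⟩ := exists_normalData (W := qbarCurve W) (isInt_qbarCurve A W)
    (by simpa [qbar_Δ] using hΔ0) (by rwa [qbar_Δ]) (by rwa [qbar_c₄])
  have hfix : ∀ σ ∈ A.inertiaSubgroupIn ℚ, σ D.t = D.t ∧ σ (D.C.u : Qbar) = D.C.u ∧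
      σ D.C.r = D.C.r ∧ σ D.C.s = D.C.s ∧ σ D.C.t = D.C.t := fun σ hσ =>
    hD σ hσ (by rw [qbar_a₁, map_intCast]) (by rw [qbar_a₂, map_intCast])
      (by rw [qbar_a₃, map_intCast]) (by rw [qbar_a₄, map_intCast]) (by rw [qbar_a₆, map_intCast])
  have hτ : D.t ∈ inertiaField A := fun σ hσ => (hfix σ hσ).1
  obtain ⟨ψ, ⟨hψi, hψs⟩, hψsome, hψE0⟩ := exists_node_hom D
  have hcomm : ∀ σ, ∀ hσ : σ ∈ A.inertiaSubgroupIn ℚ, ∀ R,
      ψ (inertiaConj hτ hσ R) = σ • (ψ R : ((W.map (Int.castRingHom ℚ))⁄Qbar).Point) := by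
    intro σ hσ R
    obtain ⟨-, hu, hr, hs, hw⟩ := hfix σ hσ
    exact node_hom_inertiaConj hτ hψsome hσ hu hr hs hw R
  obtain ⟨P₀, hP₀⟩ := hψs P
  obtain ⟨Q₀, hQ₀⟩ := hψs Q
  rcases P₀ with _ | ⟨x, y, hns⟩
  · refine absurd ?_ hPd
    rw [← hP₀]
    show InE0 A (ψ 0)
    rw [map_zero]
    exact inE0_zero
  have hx : v x < 1 := by
    have h1 : ¬ InE0 A (W := qbarCurve W) P := hPd
    rwa [← hP₀, hψE0, not_not, deep_some] at h1
  have htor : p • Affine.Point.some x y hns = 0 :=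
    hψi (by rw [map_nsmul, hP₀, map_zero]; exact hP)
  have hQd : ¬ Deep A Q₀ := by rw [← hψE0, hQ₀]; exact hQin
  have hQ₀0 : Q₀ ≠ 0 := fun h => hQ0 (by rw [← hQ₀, h, map_zero])
  have hQ₀p : p • Q₀ = 0 := hψi (by rw [map_nsmul, hQ₀, map_zero]; exact hQp)
  have hn' : v D.t = v (p : Qbar) ^ padicValInt p W.Δ := by
    rw [D.hΔ, qbar_Δ, val_intCast_eq_pow hA hΔ0]
  obtain ⟨t, a, ha, ha0, ha1, heq, hfixt⟩ :=
    exists_eisenstein hp2 hA D.ht D.ht0 hτ hn' hv hx htor hQd hQ₀0 hQ₀p hζ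
      (fun σ hσ => (hline σ hσ).imp fun c h =>
        ⟨hψi (by rw [hcomm, map_nsmul, hQ₀]; exact h.1), h.2⟩)
      (fun σ hσ => (hPact σ hσ).imp fun b h =>
        hψi (by rw [hcomm, map_add, map_nsmul, hP₀, hQ₀]; exact h))
      (fun b => by
        obtain ⟨σ, hσ, h⟩ := htrans b
        exact ⟨σ, hσ, hψi (by rw [hcomm, map_add, map_nsmul, hP₀, hQ₀]; exact h)⟩)
  refine ⟨t, a, ha, ha0, ha1, heq, fun σ hσ h => ?_⟩
  obtain ⟨g, e⟩ := inertiaConj_some hτ hσ hns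
  obtain ⟨hσx, hσy⟩ := hfixt σ hσ h
  have h1 := hcomm σ hσ (Affine.Point.some x y hns)
  rw [e, hP₀] at h1
  simp only [hσx, hσy] at h1
  rw [hP₀] at h1
  exact h1.symm

end Fermat.Agent.LoweringAtP.PeuRamifie
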