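import Mathlib.RingTheory.Polynomial.Cyclotomic.Eval
import Fermat.Agent.LoweringAtP.PeuRamifie.Basic

/-!
# Inertia at `p`: orbits

The orbits of inertia on an affine line of torsion and on the `p`-th roots of unity, with the value
of `1 - ζ`.
-/

noncomputable section

namespace Fermat.Agent.LoweringAtP.PeuRamifie

open Polynomial

section Affine

variable {M G : Type*} [AddCommGroup M] [Group G] [DistribMulAction G M]

/-- A group fixing no point of the coset `P + ⟨Q⟩` on which it acts affinely is transitive. -/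
theorem fixed_or_transitive (H : Subgroup G) {p : ℕ} [Fact p.Prime] {P Q : M} (hQ0 : Q ≠ 0)
    (hQp : p • Q = 0) (hP : ∀ g ∈ H, ∃ b : ℕ, g • P = P + b • Q)
    (hQ : ∀ g ∈ H, ∃ c : ℕ, g • Q = c • Q) :
    (∃ a : ℕ, ∀ g ∈ H, g • (P + a • Q) = P + a • Q) ∨
      ∀ a : ℕ, ∃ g ∈ H, g • P = P + a • Q := by
  classical
  let ι : ZMod p →+ M :=
    ZMod.lift p ⟨zmultiplesHom M Q, by simp only [zmultiplesHom_apply, natCast_zsmul, hQp]⟩
  have hι : ∀ n : ℕ, ι (n : ZMod p) = n • Q := fun n => by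
    rw [← Int.cast_natCast, ZMod.lift_coe]
    simp [zmultiplesHom_apply]
  have hinj : Function.Injective ι := by
    refine (injective_iff_map_eq_zero ι).mpr fun a ha => ?_
    obtain ⟨n, rfl⟩ := ZMod.natCast_zmod_surjective a
    rw [hι] at ha
    rw [ZMod.natCast_eq_zero_iff]
    exact addOrderOf_eq_prime hQp hQ0 ▸ addOrderOf_dvd_of_nsmul_eq_zero ha
  have hb : ∀ g ∈ H, ∃ b : ZMod p, g • P = P + ι b := fun g hg => by
    obtain ⟨b, h⟩ := hP g hg; exact ⟨b, by rw [hι, h]⟩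
  have hc : ∀ g ∈ H, ∃ c : ZMod p, ∀ x, g • ι x = ι (c * x) := fun g hg => by
    obtain ⟨c, h⟩ := hQ g hg
    refine ⟨c, fun x => ?_⟩
    obtain ⟨n, rfl⟩ := ZMod.natCast_zmod_surjective x
    rw [← Nat.cast_mul, hι, hι, smul_comm g n Q, h, mul_smul, smul_comm]
  -- an element translating by a nonzero amount gives transitivity
  have htrans : ∀ g ∈ H, ∀ d : ZMod p, d ≠ 0 → (∀ x, g • ι x = ι x) → g • P = P + ι d →
      ∀ a : ℕ, ∃ g ∈ H, g • P = P + a • Q := by
    intro g hg d hd hgQ hgP a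
    have hpow : ∀ n : ℕ, g ^ n • P = P + ι ((n : ZMod p) * d) := by
      intro n
      induction n with
      | zero => simp
      | succ n ih =>
        rw [pow_succ', mul_smul, ih, smul_add, hgP, hgQ, add_assoc, ← map_add, Nat.cast_succ,
          add_mul, one_mul, add_comm d]
    refine ⟨g ^ (((a : ZMod p) / d).val), pow_mem hg _, ?_⟩
    rw [hpow, ZMod.natCast_val, ZMod.cast_id, div_mul_cancel₀ _ hd, hι]
  by_cases hall : ∀ g ∈ H, ∀ x, g • ι x = ι x
  · by_cases hfix : ∀ g ∈ H, g • P = P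
    · exact Or.inl ⟨0, fun g hg => by rw [zero_smul, add_zero, hfix g hg]⟩
    · push Not at hfix
      obtain ⟨g, hg, hne⟩ := hfix
      obtain ⟨b, hgb⟩ := hb g hg
      exact Or.inr (htrans g hg b (fun h0 => hne (by rw [hgb, h0, map_zero, add_zero]))
        (hall g hg) hgb)
  · push Not at hall
    obtain ⟨g₀, hg₀, x₀, hx₀⟩ := hall
    obtain ⟨c₀, hc₀⟩ := hc g₀ hg₀
    have hc1 : 1 - c₀ ≠ 0 := fun h => hx₀ (by rw [hc₀, ← sub_eq_zero.mp h, one_mul])
    obtain ⟨b₀, hb₀⟩ := hb g₀ hg₀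
    obtain ⟨a₀, ha₀⟩ : ∃ a₀ : ZMod p, a₀ = b₀ / (1 - c₀) := ⟨_, rfl⟩
    set P' := P + ι a₀ with hP'
    clear_value P'
    have hfix₀ : g₀ • P' = P' := by
      rw [hP', smul_add, hb₀, hc₀, add_assoc, ← map_add]
      congr 2
      rw [ha₀]
      field_simp
      ring
    by_cases hfix : ∀ g ∈ H, g • P' = P'
    · exact Or.inl ⟨a₀.val, fun g hg => by
        rw [← hι, ZMod.natCast_val, ZMod.cast_id, ← hP', hfix g hg]⟩
    right
    push Not at hfix
    obtain ⟨τ, hτ, hne⟩ := hfix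
    obtain ⟨bτ, hbτ⟩ := hb τ hτ
    obtain ⟨cτ, hcτ⟩ := hc τ hτ
    set b := bτ + cτ * a₀ - a₀ with hbdef
    have hτP : τ • P' = P' + ι b := by
      rw [hP', smul_add, hbτ, hcτ, add_assoc, ← map_add, add_assoc, ← map_add]
      congr 2
      ring
    have hb0 : b ≠ 0 := fun h => hne (by rw [hτP, h, map_zero, add_zero])
    set γ := g₀ * τ * (τ * g₀)⁻¹ with hγ
    have hγH : γ ∈ H := mul_mem (mul_mem hg₀ hτ) (inv_mem (mul_mem hτ hg₀))
    have hγeq : ∀ z : M, γ • ((τ * g₀) • z) = (g₀ * τ) • z := fun z => by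
      rw [hγ, ← mul_smul, inv_mul_cancel_right]
    clear_value γ
    obtain ⟨cγ, hcγ⟩ := hc γ hγH
    have hγQ : ∀ x, γ • ι x = ι x := by
      have h1 := hγeq (ι 1)
      rw [mul_smul, mul_smul, hc₀, hcτ, hcτ, hcγ, hc₀] at h1
      have h2 := hinj h1
      have hu : cτ * c₀ ≠ 0 := fun h0 => one_ne_zero (α := ZMod p) (hinj (by
        have h3 : (τ * g₀) • ι 1 = 0 := by
          rw [mul_smul, hc₀, hcτ, mul_one, h0, map_zero]
        rw [map_zero]
        exact (smul_eq_zero_iff_eq _).mp h3))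
      have h4 : cγ = 1 := mul_right_cancel₀ hu (by linear_combination h2)
      exact fun x => by rw [hcγ, h4, one_mul]
    refine htrans γ hγH ((c₀ - 1) * b) (mul_ne_zero (fun h => hc1 (by linear_combination -h)) hb0)
      hγQ ?_
    have h1 := hγeq P'
    rw [mul_smul, mul_smul, hfix₀, hτP, smul_add, smul_add, hfix₀, hγQ, hc₀] at h1
    have h2 : γ • P' = P' + ι ((c₀ - 1) * b) := by
      rw [sub_mul, one_mul, map_sub, add_sub, eq_sub_iff_add_eq, h1]
    rw [hP', smul_add, hγQ] at h2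
    rw [← add_right_cancel_iff (a := ι a₀), h2]
    abel

end Affine

section Cyclotomic

local notation "Qbar" => AlgebraicClosure ℚ

variable {A : ValuationSubring Qbar} {p : ℕ} (hp : p.Prime) (hA : A.LiesOverPrime p)
include hp hA

local notation "v" => A.valuation

omit hA in
/-- The value of `1 - ζ`. -/
theorem val_one_sub_pow {ζ : Qbar} (hζ : IsPrimitiveRoot ζ p) :
    v (1 - ζ) ^ (p - 1) = v (p : Qbar) := by
  classical
  have := Fact.mk hp
  have hle : ∀ μ μ' : Qbar, IsPrimitiveRoot μ p → IsPrimitiveRoot μ' p →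
      v (1 - μ') ≤ v (1 - μ) := by
    intro μ μ' hμ hμ'
    have hμA : μ ∈ A := Gal.mem_of_isIntegral (hμ.isIntegral hp.pos)
    obtain ⟨i, -, rfl⟩ := hμ.eq_pow_of_pow_eq_one hμ'.pow_eq_one
    rw [show 1 - μ ^ i = (1 - μ) * ∑ j ∈ Finset.range i, μ ^ j from (mul_neg_geom_sum μ i).symm,
      map_mul]
    exact mul_le_of_le_one_right' ((A.valuation_le_one_iff _).mpr
      (sum_mem fun j _ => pow_mem hμA j))
  have h1 := eval_one_cyclotomic_prime (R := Qbar) (p := p)
  rw [cyclotomic_eq_prod_X_sub_primitiveRoots hζ, eval_prod] at h1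
  rw [← h1, map_prod]
  have hcard : (primitiveRoots p Qbar).card = p - 1 := by
    rw [hζ.card_primitiveRoots, Nat.totient_prime hp]
  rw [← hcard, ← Finset.prod_const]
  refine Finset.prod_congr rfl fun μ hμ => ?_
  have hμ' := (mem_primitiveRoots hp.pos).mp hμ
  rw [eval_sub, eval_X, eval_C]
  exact le_antisymm (hle μ ζ hμ' hζ) (hle ζ μ hζ hμ')

/-- Inertia at `p` moves a primitive `p`-th root of unity to every other one. -/
theorem exists_inertia_root_eq {ζ ξ : Qbar} (hζ : IsPrimitiveRoot ζ p)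
    (hξ : IsPrimitiveRoot ξ p) : ∃ σ ∈ A.inertiaSubgroupIn ℚ, σ ζ = ξ := by
  classical
  set O : Finset Qbar := (primitiveRoots p Qbar).filter
    (fun μ => ∃ σ ∈ A.inertiaSubgroupIn ℚ, σ ζ = μ)
  suffices h : O = primitiveRoots p Qbar by
    have : ξ ∈ O := h ▸ (mem_primitiveRoots hp.pos).mpr hξ
    exact (Finset.mem_filter.mp this).2
  have hcard : (primitiveRoots p Qbar).card = p - 1 := by
    rw [hζ.card_primitiveRoots, Nat.totient_prime hp]
  refine Finset.eq_of_subset_of_card_le (Finset.filter_subset _ _) (hcard.trans_le ?_)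
  set x : Qbar := ∏ μ ∈ O, (1 - μ)
  have hmem : ∀ μ ∈ O, IsPrimitiveRoot μ p := fun μ hμ =>
    (mem_primitiveRoots hp.pos).mp (Finset.mem_filter.mp hμ).1
  have hx0 : x ≠ 0 := Finset.prod_ne_zero_iff.mpr fun μ hμ =>
    sub_ne_zero.mpr ((hmem μ hμ).ne_one hp.one_lt).symm
  have hxfix : x ∈ inertiaField A := fun σ hσ => by
    have hmap : ∀ μ ∈ O, σ μ ∈ O := fun μ hμ => by
      obtain ⟨hμp, τ, hτ, rfl⟩ := Finset.mem_filter.mp hμ
      refine Finset.mem_filter.mpr ⟨(mem_primitiveRoots hp.pos).mpr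
        (((mem_primitiveRoots hp.pos).mp hμp).map_of_injective σ.injective), σ * τ,
        mul_mem hσ hτ, AlgEquiv.mul_apply σ τ ζ⟩
    rw [map_prod]
    simp only [map_sub, map_one]
    have himg : O.image σ = O :=
      Finset.eq_of_subset_of_card_le (Finset.image_subset_iff.mpr hmap)
        (by rw [Finset.card_image_of_injective _ σ.injective])
    conv_rhs => rw [show x = ∏ μ ∈ O.image σ, (1 - μ) by rw [himg]]
    rw [Finset.prod_image fun a _ b _ h => σ.injective h]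
  obtain ⟨j, hj⟩ := exists_val_eq_zpow hp hA hxfix hx0
  have hpow : v x ^ (p - 1) = v (p : Qbar) ^ (O.card : ℤ) := by
    rw [map_prod, ← Finset.prod_pow, zpow_natCast, ← Finset.prod_const]
    exact Finset.prod_congr rfl fun μ hμ => val_one_sub_pow hp (hmem μ hμ)
  rw [hj, ← zpow_natCast, ← zpow_mul, zpow_val_inj hp hA] at hpow
  have hpos : 0 < O.card := Finset.card_pos.mpr ⟨ζ, Finset.mem_filter.mpr
    ⟨(mem_primitiveRoots hp.pos).mpr hζ, 1, one_mem _, rfl⟩⟩
  exact Nat.le_of_dvd hpos (Int.natCast_dvd_natCast.mp ⟨j, by rw [← hpow, mul_comm]⟩)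

end Cyclotomic

end Fermat.Agent.LoweringAtP.PeuRamifie
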