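import Fermat.Agent.LoweringAtP.PeuRamifie.Chord
import Fermat.Agent.LoweringAtP.PeuRamifie.Orbit
import Fermat.Agent.Tate.Line

/-!
# A cyclotomic line near the origin: the value of the parameter

If inertia acts on the line of a point `Q` of order `p` near the origin by the cyclotomic
character, the `(p - 1)`-st power of the value of the parameter of `Q` is the value of `p`; on the
node curve inertia acts through `inertiaConj`.
-/

noncomputable section

namespace Fermat.Agent.LoweringAtP.PeuRamifie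

open Polynomial WeierstrassCurve Fermat.Agent.Tate

local notation "Qbar" => AlgebraicClosure ℚ

variable {A : ValuationSubring (AlgebraicClosure ℚ)} {τ : AlgebraicClosure ℚ}

local notation "v" => A.valuation

/-- Inertia as a homomorphism on the points of a node curve with fixed parameter. -/
def inertiaConj (hτ : τ ∈ inertiaField A) {σ : AlgebraicClosure ℚ ≃ₐ[ℚ] AlgebraicClosure ℚ}
    (hσ : σ ∈ A.inertiaSubgroupIn ℚ) : (nodeCurve τ).Point →+ (nodeCurve τ).Point :=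
  let W₀ : WeierstrassCurve (inertiaField A) := ⟨1, 0, 0, 0, ⟨τ, hτ⟩⟩
  Affine.Point.map (W' := W₀.toAffine) (F := Qbar) (K := Qbar)
    ({ (σ : Qbar →+* Qbar) with commutes' := fun a => a.2 σ hσ } : Qbar →ₐ[inertiaField A] Qbar)

theorem inertiaConj_some (hτ : τ ∈ inertiaField A)
    {σ : AlgebraicClosure ℚ ≃ₐ[ℚ] AlgebraicClosure ℚ} (hσ : σ ∈ A.inertiaSubgroupIn ℚ)
    {x y : AlgebraicClosure ℚ} (h : (nodeCurve τ).Nonsingular x y) :
    ∃ h', inertiaConj hτ hσ (.some x y h) = .some (σ x) (σ y) h' := ⟨_, rfl⟩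

theorem zPar_inertiaConj (hτ : τ ∈ inertiaField A)
    {σ : AlgebraicClosure ℚ ≃ₐ[ℚ] AlgebraicClosure ℚ} (hσ : σ ∈ A.inertiaSubgroupIn ℚ)
    (P : (nodeCurve τ).Point) :
    zPar (nodeCurve τ) (inertiaConj hτ hσ P) = σ (zPar (nodeCurve τ) P) := by
  rcases P with _ | ⟨x, y, h⟩
  · exact (map_zero σ).symm
  · obtain ⟨h', e⟩ := inertiaConj_some hτ hσ h
    rw [e]
    exact (map_div₀ σ x y).symm

variable {p : ℕ} [hp : Fact p.Prime]

theorem val_natCast_eq_one_of_not_dvd (hA : A.LiesOverPrime p) {n : ℕ} (hn : ¬ p ∣ n) :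
    v (n : Qbar) = 1 := by
  rw [← Int.cast_natCast, val_intCast_eq_one_iff hp.out hA, Int.natCast_dvd_natCast]
  exact hn

section Line

theorem nsmul_mod {M : Type*} [AddMonoid M] {Q : M} {p : ℕ} (h : p • Q = 0) (k : ℕ) :
    k • Q = (k % p) • Q := by
  conv_lhs => rw [← Nat.mod_add_div k p, add_nsmul, mul_nsmul, h, nsmul_zero, add_zero]

/-- The power of the value of `p` equal to the `(p - 1)`-st power of the value of the parameter of
a point of order `p` near the origin whose line is stable under inertia lies between `1` and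
`p - 1`. -/
theorem exists_pow_val_zPar (hA : A.LiesOverPrime p)
    {W : WeierstrassCurve.Affine (AlgebraicClosure ℚ)} (hint : IsInt A W) {xq yq : Qbar}
    {hnsq : W.Nonsingular xq yq} (hxq : 1 < v xq)
    (htor : p • (Affine.Point.some xq yq hnsq : W.Point) = 0)
    (hline : ∀ σ ∈ A.inertiaSubgroupIn ℚ, ∃ c : ℕ, ¬ p ∣ c ∧ ∀ d : ℕ,
      σ (zPar W (d • (Affine.Point.some xq yq hnsq : W.Point))) =
        zPar W ((d * c) • (Affine.Point.some xq yq hnsq : W.Point))) :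
    ∃ e : ℕ, e ≠ 0 ∧ e ≤ p - 1 ∧
      v (zPar W (Affine.Point.some xq yq hnsq : W.Point)) ^ (p - 1) = v (p : Qbar) ^ e := by
  set Q : W.Point := Affine.Point.some xq yq hnsq with hQdef
  set z := zPar W Q with hz
  have hQ1 : InE1 A Q := inE1_some.2 hxq
  have hQ0 : Q ≠ 0 := Affine.Point.some_ne_zero hnsq
  have hzpos : 0 < v z := val_zPar_pos hint hxq
  have hzlt : v z < 1 := val_zPar_lt_one hint hxq
  have hp2 := hp.out.two_le
  have hlin : ∀ c : ℕ, v (zPar W (c • Q) - c * z) < v z :=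
    val_zPar_nsmul_sub hint hQ1 hQ0
  -- the product over the line is fixed
  set O : Finset Qbar := (Finset.Ico 1 p).image fun c => zPar W (c • Q) with hO
  have hOval : ∀ r ∈ O, v r = v z := fun r hr => by
    obtain ⟨c, hc, rfl⟩ := Finset.mem_image.1 hr
    rw [Finset.mem_Ico] at hc
    exact val_zPar_nsmul hint hQ1 hQ0
      (val_natCast_eq_one_of_not_dvd hA (Nat.not_dvd_of_pos_of_lt (by omega) hc.2))
  have hOcard : O.card = p - 1 := by
    rw [Finset.card_image_of_injOn, Nat.card_Ico]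
    intro c hc d hd hcd
    simp only [Finset.coe_Ico, Set.mem_Ico] at hc hd hcd
    by_contra hne
    have h1 : v (((c : ℤ) - d : ℤ) : Qbar) = 1 := by
      rw [val_intCast_eq_one_iff hp.out hA]
      intro hdvd
      have := Int.eq_zero_of_abs_lt_dvd hdvd (by rw [abs_lt]; constructor <;> omega)
      omega
    have h2 : v ((((c : ℤ) - d : ℤ) : Qbar) * z) < v z := by
      rw [show (((c : ℤ) - d : ℤ) : Qbar) * z = (zPar W (d • Q) - d * z)
        - (zPar W (c • Q) - c * z) by rw [hcd]; push_cast; ring]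
      exact Valuation.map_sub_lt _ (hlin d) (hlin c)
    rw [map_mul, h1, one_mul] at h2
    exact lt_irrefl _ h2
  have hOfix : (∏ r ∈ O, r) ∈ inertiaField A := fun σ hσ => by
    obtain ⟨c, hpc, hc⟩ := hline σ hσ
    have hmap : ∀ r ∈ O, σ r ∈ O := by
      intro r hr
      obtain ⟨d, hd, rfl⟩ := Finset.mem_image.1 hr
      rw [Finset.mem_Ico] at hd
      refine Finset.mem_image.2 ⟨d * c % p, Finset.mem_Ico.2 ⟨Nat.pos_of_ne_zero fun h0 => ?_,
        Nat.mod_lt _ hp.out.pos⟩, ?_⟩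
      · rcases hp.out.dvd_mul.1 (Nat.dvd_of_mod_eq_zero h0) with h | h
        · exact Nat.not_dvd_of_pos_of_lt (by omega) hd.2 h
        · exact hpc h
      · rw [hc, ← nsmul_mod htor]
    have himg : O.image σ = O :=
      Finset.eq_of_subset_of_card_le (Finset.image_subset_iff.mpr hmap)
        (by rw [Finset.card_image_of_injective _ σ.injective])
    rw [map_prod]
    conv_rhs => rw [← himg]
    rw [Finset.prod_image fun a _ b _ h => σ.injective h]
  have hprod : v (∏ r ∈ O, r) = v z ^ (p - 1) := by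
    rw [map_prod, ← hOcard, ← Finset.prod_const]
    exact Finset.prod_congr rfl hOval
  have hp0 := val_p_pos hp.out hA
  obtain ⟨j, hj⟩ := exists_val_eq_zpow hp.out hA hOfix
    ((Valuation.ne_zero_iff _).1 (by rw [hprod]; exact (pow_pos hzpos _).ne'))
  rw [hprod] at hj
  obtain ⟨e, rfl⟩ : ∃ e : ℕ, j = e := ⟨j.toNat, (Int.toNat_of_nonneg (by
    have : v z ^ (p - 1) < 1 := pow_lt_one₀ zero_le hzlt (by omega)
    rw [hj, ← zpow_zero (v (p : Qbar)), zpow_val_lt_iff hp.out hA] at this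
    omega)).symm⟩
  rw [zpow_natCast] at hj
  have he0 : e ≠ 0 := fun h0 => by
    rw [h0, pow_zero] at hj
    exact (pow_lt_one₀ zero_le hzlt (by omega)).ne hj
  have heb : e ≤ p - 1 := by
    have hb := sq_natCast_mul_val_le hint (n := p) hp.out.two_le hxq.le htor
    have hsq := val_zPar_sq hint (h := hnsq) hxq
    have hle : v (p : Qbar) ≤ v z := by
      refine (pow_le_pow_iff_left₀ hp0.le hzpos.le two_ne_zero).1 ?_
      refine le_of_mul_le_mul_right (a := v xq) ?_ (zero_lt_one.trans hxq)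
      rw [hsq]
      exact hb
    have h1 : v (p : Qbar) ^ (p - 1) ≤ v (p : Qbar) ^ e :=
      hj ▸ pow_le_pow_left₀ hp0.le hle (p - 1)
    exact (pow_le_pow_iff_right_of_lt_one₀ hp0 (val_p_lt_one hp.out hA)).1 h1
  exact ⟨e, he0, heb, hj⟩

/-- `1 - ζ ^ c ≡ c (1 - ζ)` to first order. -/
theorem val_one_sub_pow_sub (hA : A.LiesOverPrime p) {ζ : AlgebraicClosure ℚ}
    (hζ : IsPrimitiveRoot ζ p) (c : ℕ) :
    v ((1 - ζ ^ c) - c * (1 - ζ)) < v (1 - ζ) := by
  have hζ1 : (1 - ζ) ≠ 0 := sub_ne_zero.mpr (hζ.ne_one hp.out.one_lt).symm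
  have hvζ : 0 < v (1 - ζ) := zero_lt_iff.2 ((Valuation.ne_zero_iff _).2 hζ1)
  have hu := val_one_sub_pow (A := A) hp.out hζ
  have hsum : (1 - ζ ^ c) - c * (1 - ζ) = (1 - ζ) * ∑ i ∈ Finset.range c, (ζ ^ i - 1) := by
    rw [Finset.sum_sub_distrib, Finset.sum_const, Finset.card_range, nsmul_one]
    linear_combination -(mul_neg_geom_sum ζ c)
  rw [hsum, map_mul]
  refine mul_lt_of_lt_one_right hvζ (Valuation.map_sum_lt _ one_ne_zero fun i _ => ?_)
  have hζA : ζ ∈ A := Gal.mem_of_isIntegral (hζ.isIntegral hp.out.pos)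
  rw [show ζ ^ i - 1 = -((1 - ζ) * ∑ l ∈ Finset.range i, ζ ^ l) by rw [mul_neg_geom_sum]; ring,
    Valuation.map_neg, map_mul]
  refine mul_lt_one_of_nonneg_of_lt_one_left zero_le ?_
    ((A.valuation_le_one_iff _).2 (sum_mem fun l _ => pow_mem hζA l))
  by_contra hge
  exact (lt_of_lt_of_le (val_p_lt_one hp.out hA) (hu ▸ one_le_pow₀ (not_lt.1 hge))).false

/-- The parameter of a multiple prime to `p` of `-Q` has the value of that of `Q`. -/
theorem val_zPar_neg_nsmul (hA : A.LiesOverPrime p)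
    {W : WeierstrassCurve.Affine (AlgebraicClosure ℚ)} (hint : IsInt A W) {Q : W.Point}
    (hQ1 : InE1 A Q) (hQ0 : Q ≠ 0) (hQp : p • Q = 0) {a : ℕ} (ha : ¬ p ∣ a) :
    v (zPar W (-(a • Q))) = v (zPar W Q) := by
  have hneg : -(a • Q) = ((p - 1) * a) • Q := neg_eq_of_add_eq_zero_right (by
    rw [← add_nsmul, show a + (p - 1) * a = p * a by
      conv_lhs => rw [← one_mul a, ← mul_assoc, mul_one, ← add_mul]
      rw [Nat.add_sub_cancel' hp.out.one_le], mul_nsmul, hQp, nsmul_zero])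
  rw [hneg]
  refine val_zPar_nsmul hint hQ1 hQ0 (val_natCast_eq_one_of_not_dvd hA fun h => ?_)
  rcases hp.out.dvd_mul.1 h with h | h
  · have := hp.out.two_le
    exact Nat.not_dvd_of_pos_of_lt (by omega) (by omega) h
  · exact ha h

/-- The value of the parameter of a point of order `p` near the origin on which inertia acts by
the cyclotomic character. -/
theorem val_zPar_pow_eq_of (hp2 : p ≠ 2) (hA : A.LiesOverPrime p)
    {W : WeierstrassCurve.Affine (AlgebraicClosure ℚ)} (hint : IsInt A W) {Q : W.Point}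
    (hQ1 : InE1 A Q) (hQ0 : Q ≠ 0) (htor : p • Q = 0) {ζ : AlgebraicClosure ℚ}
    (hζ : IsPrimitiveRoot ζ p)
    (hline : ∀ σ ∈ A.inertiaSubgroupIn ℚ, ∃ c : ℕ,
      (∀ d : ℕ, σ (zPar W (d • Q)) = zPar W ((d * c) • Q)) ∧ σ ζ = ζ ^ c) :
    v (zPar W Q) ^ (p - 1) = v (p : Qbar) := by
  have hp3 : 3 ≤ p := lt_of_le_of_ne hp.out.two_le (Ne.symm hp2)
  set z := zPar W Q with hz
  obtain ⟨xq, yq, hnsq, rfl, hxq⟩ : ∃ xq yq hnsq,
      Q = Affine.Point.some xq yq hnsq ∧ 1 < v xq := by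
    rcases Q with _ | ⟨xq, yq, hnsq⟩
    · exact absurd rfl hQ0
    · exact ⟨xq, yq, hnsq, rfl, inE1_some.1 hQ1⟩
  set Q : W.Point := Affine.Point.some xq yq hnsq with hQdef
  have hzpos : 0 < v z := val_zPar_pos hint hxq
  have hzlt : v z < 1 := val_zPar_lt_one hint hxq
  have hz0 : z ≠ 0 := (Valuation.ne_zero_iff _).1 hzpos.ne'
  have hlin : ∀ c : ℕ, v (zPar W (c • Q) - c * z) < v z :=
    val_zPar_nsmul_sub hint hQ1 hQ0
  have hcdvd : ∀ σ : Gal.AbsGal, ∀ c : ℕ,
      (∀ d : ℕ, σ (zPar W (d • Q)) = zPar W ((d * c) • Q)) → ¬ p ∣ c := fun σ c hc hdvd => by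
    have h := hc 1
    rw [one_nsmul, one_mul, nsmul_mod htor c, Nat.mod_eq_zero_of_dvd hdvd, zero_nsmul] at h
    exact hz0 ((map_eq_zero σ).1 h)
  obtain ⟨e, he0, heb, hj⟩ := exists_pow_val_zPar hA hint hxq htor fun σ hσ => by
    obtain ⟨c, hc, -⟩ := hline σ hσ
    exact ⟨c, hcdvd σ c hc, hc⟩
  have hp0 := val_p_pos hp.out hA
  have hu := val_one_sub_pow (A := A) hp.out hζ
  -- comparison with `1 - ζ`
  set w : Qbar := z / (1 - ζ) ^ e with hw
  have hζ1 : (1 - ζ) ≠ 0 := sub_ne_zero.mpr (hζ.ne_one hp.out.one_lt).symm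
  have hvζ : 0 < v (1 - ζ) := zero_lt_iff.2 ((Valuation.ne_zero_iff _).2 hζ1)
  have hwv : v w = 1 := by
    refine pow_left_inj_val A (n := p - 1) (by omega) ?_
    rw [hw, map_div₀, map_pow, div_pow, ← pow_mul, mul_comm, pow_mul, hu, hj, one_pow, div_self]
    exact (pow_pos hp0 e).ne'
  obtain ⟨g, hg⟩ := IsCyclic.exists_ofOrder_eq_natCard (α := (ZMod p)ˣ)
  obtain ⟨σ, hσ, hσζ⟩ := exists_inertia_root_eq hp.out hA hζ
    (hζ.pow_of_coprime (g : ZMod p).val ((Nat.Prime.coprime_iff_not_dvd hp.out).2 fun h =>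
      g.ne_zero (by
        rw [← ZMod.natCast_zmod_val (g : ZMod p)]
        exact (ZMod.natCast_eq_zero_iff _ _).2 h)).symm)
  obtain ⟨c, hc, hcζ⟩ := hline σ hσ
  have hcg : (c : ZMod p) = (g : ZMod p) := by
    have h1 : ζ ^ (c % p) = ζ ^ (g : ZMod p).val := by
      rw [← hσζ, hcζ]
      conv_rhs => rw [← Nat.mod_add_div c p, pow_add, pow_mul, hζ.pow_eq_one, one_pow, mul_one]
    have := hζ.pow_inj (Nat.mod_lt _ hp.out.pos) (ZMod.val_lt _) h1
    rw [← ZMod.natCast_zmod_val (g : ZMod p), ← this, ZMod.natCast_mod]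
  have hdec := mem_decomposition_of_mem_inertia hσ
  have hσw : v (σ w - w) < 1 := val_sub_lt_one_of_mem_inertia hσ ((mem_iff A).2 hwv.le)
  -- `σ z ≡ c z`, `σ (1 - ζ) ≡ c (1 - ζ)`
  have hσz : v (σ z - c * z) < v z := by
    have h1 := hc 1
    rw [one_nsmul, one_mul] at h1
    rw [hz, h1]
    exact hlin c
  have hσu : v (σ (1 - ζ) - c * (1 - ζ)) < v (1 - ζ) := by
    rw [map_sub σ, map_one σ, hcζ]
    exact val_one_sub_pow_sub hA hζ c
  -- in the residue field
  let k := IsLocalRing.ResidueField A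
  have hres : ∀ {a b : Qbar} (ha : a ∈ A) (hb : b ∈ A), v (a - b) < 1 →
      IsLocalRing.residue A ⟨a, ha⟩ = IsLocalRing.residue A ⟨b, hb⟩ := fun ha hb h => by
    rw [← sub_eq_zero, ← map_sub, IsLocalRing.residue_eq_zero_iff,
      ValuationSubring.valuation_lt_one_iff]
    exact h
  have hσζ0 : σ (1 - ζ) ≠ 0 := (map_ne_zero σ).2 hζ1
  have hcA : ((c : ℕ) : Qbar) ∈ A := natCast_mem A c
  have hc1 : v (c : Qbar) = 1 := val_natCast_eq_one_of_not_dvd hA (hcdvd σ c hc)
  have h1 : v (σ z / z - c) < 1 := by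
    rw [div_sub' hz0, map_div₀, div_lt_one₀ hzpos]
    rwa [mul_comm]
  have h2 : v (σ (1 - ζ) / (1 - ζ) - c) < 1 := by
    rw [div_sub' hζ1, map_div₀, div_lt_one₀ hvζ]
    rwa [mul_comm]
  have hmem1 : σ z / z ∈ A := by
    have := add_mem ((mem_iff A).2 h1.le) hcA
    rwa [sub_add_cancel] at this
  have hmem2 : σ (1 - ζ) / (1 - ζ) ∈ A := by
    have := add_mem ((mem_iff A).2 h2.le) hcA
    rwa [sub_add_cancel] at this
  have hw0 : w ≠ 0 := (Valuation.ne_zero_iff _).1 (by rw [hwv]; exact one_ne_zero)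
  have h3 : v (σ w / w - 1) < 1 := by rw [div_sub_one hw0, map_div₀, hwv, div_one]; exact hσw
  have hmem3 : σ w / w ∈ A := by
    have := add_mem ((mem_iff A).2 h3.le) (one_mem A)
    rwa [sub_add_cancel] at this
  have hid : (⟨σ z / z, hmem1⟩ : A) = ⟨σ w / w, hmem3⟩ * ⟨σ (1 - ζ) / (1 - ζ), hmem2⟩ ^ e := by
    refine Subtype.ext ?_
    show σ z / z = σ w / w * (σ (1 - ζ) / (1 - ζ)) ^ e
    rw [hw, map_div₀, map_pow, div_pow]
    field_simp
  have hk := congrArg (IsLocalRing.residue A) hid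
  rw [map_mul, map_pow, hres hmem1 hcA h1, hres hmem2 hcA h2, hres hmem3 (one_mem A) h3] at hk
  rw [show (⟨1, one_mem A⟩ : A) = 1 from rfl, map_one, one_mul,
    show (⟨(c : Qbar), hcA⟩ : A) = (c : A) from Subtype.ext (map_natCast A.subtype c).symm,
    ← map_pow, ← sub_eq_zero, ← map_sub, ← Nat.cast_pow, IsLocalRing.residue_eq_zero_iff,
    ValuationSubring.valuation_lt_one_iff] at hk
  have hk' : v (((c : ℤ) - (c ^ e : ℕ) : ℤ) : Qbar) < 1 := by
    push_cast
    simpa using hk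
  rw [val_intCast_lt_one_iff hp.out hA, ← ZMod.intCast_zmod_eq_zero_iff_dvd] at hk'
  push_cast at hk'
  rw [hcg, sub_eq_zero, ← pow_one (g : ZMod p)] at hk'
  conv_rhs at hk' => rw [pow_one]
  have hge : g ^ 1 = g ^ e := Units.ext (by push_cast; rw [pow_one]; simpa using hk')
  have hord : orderOf g = p - 1 := by rw [hg, Nat.card_eq_fintype_card, ZMod.card_units]
  have hmod := pow_eq_pow_iff_modEq.mp hge
  rw [hord] at hmod
  have he1 : e = 1 := by
    have hdvd := (Nat.modEq_iff_dvd' (Nat.pos_of_ne_zero he0)).mp hmod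
    have := Nat.eq_zero_of_dvd_of_lt hdvd (by omega)
    omega
  rw [hj, he1, pow_one]

/-- `val_zPar_pow_eq_of` on the node curve, with inertia acting through `inertiaConj`. -/
theorem val_zPar_pow_eq (hp2 : p ≠ 2) (hA : A.LiesOverPrime p) (ht : v τ < 1)
    (hτ : τ ∈ inertiaField A) {Q : (nodeCurve τ).Point} (hQ1 : InE1 A Q) (hQ0 : Q ≠ 0)
    (htor : p • Q = 0) {ζ : AlgebraicClosure ℚ} (hζ : IsPrimitiveRoot ζ p)
    (hline : ∀ σ, ∀ hσ : σ ∈ A.inertiaSubgroupIn ℚ, ∃ c : ℕ, inertiaConj hτ hσ Q = c • Q ∧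
      σ ζ = ζ ^ c) :
    v (zPar (nodeCurve τ) Q) ^ (p - 1) = v (p : Qbar) := by
  refine val_zPar_pow_eq_of hp2 hA (isInt_nodeCurve (A := A) ht) hQ1 hQ0 htor hζ fun σ hσ => ?_
  obtain ⟨c, hc, hcζ⟩ := hline σ hσ
  exact ⟨c, fun d => by rw [← zPar_inertiaConj hτ hσ, map_nsmul, hc, mul_smul], hcζ⟩

end Line

end Fermat.Agent.LoweringAtP.PeuRamifie
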