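import Fermat.Agent.LoweringAtP.PeuRamifie.Torsion

/-!
# Two close points on one branch of the node curve

Their difference lies near the origin, at a distance determined by that of the abscissas.
-/

noncomputable section

namespace Fermat.Agent.LoweringAtP.PeuRamifie

open WeierstrassCurve Fermat.Agent.Tate

variable {K : Type*} [Field K] [DecidableEq K] {A : ValuationSubring K} {t : K}

local notation "v" => A.valuation

/-- For close points of one branch the difference is at distance `|x₂ - x₁| / |x₁|`. -/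
theorem val_abscissa_sub {x₁ x₂ y₁ y₂ : K}
    {h₁ : (nodeCurve t).Nonsingular x₁ y₁} {h₂ : (nodeCurve t).Nonsingular x₂ y₂}
    (hx : v x₁ < 1) (he : v x₂ = v x₁) (hne : x₁ ≠ x₂)
    (hbr : (v y₁ < v x₁ ∧ v y₂ < v x₁) ∨ (v (-y₁ - x₁) < v x₁ ∧ v (-y₂ - x₂) < v x₁))
    (hd : v (x₂ - x₁) < v x₁) :
    ∃ (x₃ y₃ : K) (h₃ : (nodeCurve t).Nonsingular x₃ y₃),
      Affine.Point.some x₁ y₁ h₁ - Affine.Point.some x₂ y₂ h₂ = Affine.Point.some x₃ y₃ h₃ ∧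
        1 < v x₃ ∧ v x₃ * v (x₂ - x₁) ^ 2 = v x₁ ^ 2 := by
  rcases hbr with ⟨hy₁, hy₂⟩ | ⟨hy₁, hy₂⟩
  · exact aux hx he hne hy₁ hy₂ hd
  · obtain ⟨x₃, y₃, h₃, e, h⟩ := aux (h₁ := (Affine.nonsingular_neg ..).2 h₁)
      (h₂ := (Affine.nonsingular_neg ..).2 h₂) hx he hne
      (by rwa [nodeCurve_negY]) (by rwa [nodeCurve_negY]) hd
    refine ⟨x₃, _, (Affine.nonsingular_neg ..).2 h₃, ?_, h⟩
    rw [← Affine.Point.neg_some h₃, ← e, ← Affine.Point.neg_some h₁, ← Affine.Point.neg_some h₂]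
    abel
where
  aux {x₁ x₂ y₁ y₂ : K}
    {h₁ : (nodeCurve t).Nonsingular x₁ y₁} {h₂ : (nodeCurve t).Nonsingular x₂ y₂}
    (hx : v x₁ < 1) (he : v x₂ = v x₁) (hne : x₁ ≠ x₂) (hy₁ : v y₁ < v x₁) (hy₂ : v y₂ < v x₁)
    (hd : v (x₂ - x₁) < v x₁) :
    ∃ (x₃ y₃ : K) (h₃ : (nodeCurve t).Nonsingular x₃ y₃),
      Affine.Point.some x₁ y₁ h₁ - Affine.Point.some x₂ y₂ h₂ = Affine.Point.some x₃ y₃ h₃ ∧
        1 < v x₃ ∧ v x₃ * v (x₂ - x₁) ^ 2 = v x₁ ^ 2 := by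
    rw [sub_eq_add_neg, Affine.Point.neg_some]
    rcases add_cases h₁ ((Affine.nonsingular_neg ..).2 h₂) with
      ⟨hxx, -, -⟩ | ⟨x₃, y₃, l, m, h₃, -, hl, -, hc, hs⟩
    · exact absurd hxx hne
    refine ⟨x₃, _, h₃, hs, ?_⟩
    have hnum : v (y₁ - (-y₂ - x₂)) = v x₁ := by
      rw [show y₁ - (-y₂ - x₂) = x₂ + (y₁ + y₂) by ring, Valuation.map_add_eq_of_lt_left _ ?_, he]
      rw [he]; exact Valuation.map_add_lt _ hy₁ hy₂
    have hpos : 0 < v (x₂ - x₁) :=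
      zero_lt_iff.2 ((Valuation.ne_zero_iff _).2 (sub_ne_zero.2 (Ne.symm hne)))
    have hsub : v (x₁ - x₂) = v (x₂ - x₁) := by
      rw [show x₁ - x₂ = -(x₂ - x₁) by ring, Valuation.map_neg]
    have hvl : v l = v x₁ / v (x₂ - x₁) := by
      rw [hl, nodeCurve_negY, Affine.slope_of_X_ne hne, map_div₀, hnum, hsub]
    have hl1 : 1 < v l := by rw [hvl]; exact (one_lt_div₀ hpos).2 hd
    obtain ⟨he1, -, -⟩ := nodeChord hc
    have hl2 : v (l * (l + 1)) = v l ^ 2 := by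
      rw [map_mul, Valuation.map_add_eq_of_lt_left _ (by rwa [map_one]), pow_two]
    have hl21 : 1 < v l ^ 2 := one_lt_pow₀ hl1 two_ne_zero
    have hx3 : v x₃ = v l ^ 2 := by
      rw [he1, sub_sub, Valuation.map_sub_eq_of_lt_left _ ?_, hl2]
      rw [hl2]
      exact (Valuation.map_add_lt _ hx (he.trans_lt hx)).trans hl21
    refine ⟨hx3 ▸ hl21, ?_⟩
    rw [hx3, hvl, div_pow, div_mul_cancel₀ _ (pow_pos hpos 2).ne']

end Fermat.Agent.LoweringAtP.PeuRamifie
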