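import Fermat.Agent.EC.XMul
import Fermat.Agent.Tate.Main

/-!
# `p`-torsion reducing to the origin

The multiplication formula to first order and the resulting bound on the size of a torsion point
near the origin.
-/

noncomputable section

namespace Fermat.Agent.LoweringAtP.PeuRamifie

open WeierstrassCurve Polynomial Fermat.Agent.Tate

variable {K : Type*} [Field K] [DecidableEq K] {A : ValuationSubring K}
  {W : WeierstrassCurve.Affine K}

local notation "v" => A.valuation

omit [DecidableEq K] in
theorem val_zPar_pos (hW : IsInt A W) {x y : K} {h : W.Nonsingular x y} (hx : 1 < v x) :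
    0 < v (zPar W (.some x y h)) := by
  refine zero_lt_iff.2 fun h0 => zero_ne_one (α := A.ValueGroup) ?_
  rw [← val_zPar_sq hW (h := h) hx, h0]
  simp

/-- `zPar` is linear to first order. -/
theorem val_zPar_nsmul_sub (hW : IsInt A W) {P : W.Point} (hP : InE1 A P) (hP0 : P ≠ 0) (n : ℕ) :
    v (zPar W (n • P) - (n : K) * zPar W P) < v (zPar W P) := by
  rcases P with _ | ⟨x, y, h⟩
  · exact absurd rfl hP0
  set P : W.Point := Affine.Point.some x y h
  have hz := val_zPar_pos hW (h := h) (inE1_some.1 hP)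
  induction n with
  | zero => simpa [show zPar W (0 : W.Point) = 0 from rfl] using hz
  | succ k ih =>
    have hk : v (zPar W (k • P)) ≤ v (zPar W P) := by
      rw [← sub_add_cancel (zPar W (k • P)) ((k : K) * zPar W P)]
      exact Valuation.map_add_le _ ih.le (val_mul_le_of_le A (val_natCast_le A k) le_rfl)
    have hadd := val_zPar_add hW (inE1_nsmul hW hP k) hP hz hk le_rfl
    have h3 := Valuation.map_add_lt (A.valuation) hadd ih
    rw [succ_nsmul]
    convert h3 using 2
    push_cast; ring

theorem val_zPar_nsmul (hW : IsInt A W) {P : W.Point} (hP : InE1 A P) (hP0 : P ≠ 0) {n : ℕ}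
    (hn : v (n : K) = 1) : v (zPar W (n • P)) = v (zPar W P) := by
  have h := val_zPar_nsmul_sub hW hP hP0 n
  have he : v ((n : K) * zPar W P) = v (zPar W P) := by rw [map_mul, hn, one_mul]
  rw [← sub_add_cancel (zPar W (n • P)) ((n : K) * zPar W P),
    Valuation.map_add_eq_of_lt_right _ (he.symm ▸ h), he]

omit [DecidableEq K] in
/-- A root of an integral polynomial times its top coefficient. -/
theorem val_coeff_mul_root_le {f : A[X]} {N : ℕ} (hN : 1 ≤ N) (hdeg : f.natDegree ≤ N) {r : K}
    (hr : 1 ≤ v r) (hroot : (f.map A.subtype).eval r = 0) :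
    v ((f.coeff N : A) : K) * v r ≤ 1 := by
  have hr0 : 0 < v r ^ (N - 1) := pow_pos (zero_lt_one.trans_le hr) _
  rw [eval_map, eval₂_eq_sum_range' A.subtype (n := N + 1) (by omega), Finset.sum_range_succ,
    add_comm, add_eq_zero_iff_eq_neg] at hroot
  have h1 : v (((f.coeff N : A) : K) * r ^ N) ≤ v r ^ (N - 1) := by
    rw [show ((f.coeff N : A) : K) = A.subtype (f.coeff N) from rfl, hroot, Valuation.map_neg]
    refine Valuation.map_sum_le _ fun i hi => ?_
    rw [map_mul, map_pow]
    refine (mul_le_of_le_one_left' ((A.valuation_le_one_iff _).2 (f.coeff i).2)).trans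
      (pow_le_pow_right₀ hr ?_)
    rw [Finset.mem_range] at hi
    omega
  rw [map_mul, map_pow, show v r ^ N = v r * v r ^ (N - 1) by
    rw [← pow_succ', show N - 1 + 1 = N by omega], ← mul_assoc] at h1
  exact le_of_mul_le_mul_right (h1.trans (one_mul (v r ^ (N - 1))).ge) hr0

/-- A torsion point near the origin is not closer than `|n|`. -/
theorem sq_natCast_mul_val_le (hW : IsInt A W) {n : ℕ} (hn : 2 ≤ n) {x y : K}
    {h : W.Nonsingular x y} (hx : 1 ≤ v x) (htor : n • Affine.Point.some x y h = 0) :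
    v (n : K) ^ 2 * v x ≤ 1 := by
  let W₀ : WeierstrassCurve A :=
    ⟨⟨_, (mem_iff A).2 hW.h₁⟩, ⟨_, (mem_iff A).2 hW.h₂⟩, ⟨_, (mem_iff A).2 hW.h₃⟩,
      ⟨_, (mem_iff A).2 hW.h₄⟩, ⟨_, (mem_iff A).2 hW.h₆⟩⟩
  have hmap : W₀.map A.subtype = W := by ext <;> rfl
  have hroot := (EC.nsmul_eq_zero_iff h n).1 htor
  rw [← hmap, EC.den_map] at hroot
  have hN : 1 ≤ n ^ 2 - 1 := by
    have : 2 ^ 2 ≤ n ^ 2 := Nat.pow_le_pow_left hn 2
    omega
  have := val_coeff_mul_root_le hN (EC.natDegree_den_le W₀ n) hx hroot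
  rwa [EC.coeff_den, SubmonoidClass.coe_pow, map_pow,
    show (((n : A)) : K) = (n : K) from map_natCast A.subtype n] at this

end Fermat.Agent.LoweringAtP.PeuRamifie
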